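import Mathlib
import Fermat.Prelude.Def_GroupCohomology_ContinuousUnramified
import Fermat.Agent.Common.EverywhereUnramified

/-!
Area PT (Poitou-Tate, Taylor-Wiles primes): shared definitions.

Continuous cohomology in degrees `≤ 2` of finite smooth `𝔽_p`-modules, cup products, the local
groups at the rational primes, unramified classes and induced modules.
-/

set_option autoImplicit false
set_option linter.style.haveILetI false

noncomputable section

open CategoryTheory groupCohomology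

namespace FLTAgent.PT

/-- `Gal(ℚ̄/ℚ)` -/
abbrev GQ : Type := AlgebraicClosure ℚ ≃ₐ[ℚ] AlgebraicClosure ℚ

/-- the local Galois group at `q` -/
abbrev Gam (q : Nat.Primes) : Type := ExtCitation.primeLocalGaloisGroup q

/-- its map to `Gal(ℚ̄/ℚ)` -/
abbrev loc (q : Nat.Primes) : Gam q →* GQ := ExtCitation.primeLocalToGlobal q

/-- the inertia subgroup of `Gam q` -/
def inert (q : Nat.Primes) : Subgroup (Gam q) :=
  ((ExtCitation.primeLocalPlace q).inertiaSubgroupIn ℚ).comap (loc q)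

/-- a number field containing `F`, normal over `ℚ` -/
theorem exists_normal_level (F : IntermediateField ℚ (AlgebraicClosure ℚ)) [FiniteDimensional ℚ F] :
    ∃ F' : IntermediateField ℚ (AlgebraicClosure ℚ), FiniteDimensional ℚ F' ∧
      F'.fixingSubgroup ≤ F.fixingSubgroup ∧ F'.fixingSubgroup.Normal := by
  haveI := FLTAgent.Common.isGalois_qbar
  haveI : Normal ℚ (IntermediateField.normalClosure ℚ F (AlgebraicClosure ℚ)) :=
    normalClosure.normal ℚ F _
  haveI : IsGalois ℚ (IntermediateField.normalClosure ℚ F (AlgebraicClosure ℚ)) := { }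
  exact ⟨_, inferInstance, IntermediateField.fixingSubgroup_antitone F.le_normalClosure,
    inferInstance⟩

variable {p : ℕ} [Fact p.Prime]

section General

variable {G : Type} [Group G] (r : G →* GQ)

/-- finite modules with an action factoring through a finite level -/
structure IsAdm (M : Rep.{0} (ZMod p) G) : Prop where
  finite : Module.Finite (ZMod p) M
  level : ∃ F : IntermediateField ℚ (AlgebraicClosure ℚ), FiniteDimensional ℚ F ∧
    ∀ g, r g ∈ F.fixingSubgroup → M.ρ g = 1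

/-- a common normal level -/
theorem IsAdm.exists_level {M : Rep.{0} (ZMod p) G} (hM : IsAdm r M) {X : Type*} {f : G → X}
    (hf : IsLevelConstant₁ r f) :
    ∃ F : IntermediateField ℚ (AlgebraicClosure ℚ), FiniteDimensional ℚ F ∧
      F.fixingSubgroup.Normal ∧ (∀ g, r g ∈ F.fixingSubgroup → M.ρ g = 1) ∧
      ∀ g s, r s ∈ F.fixingSubgroup → f (g * s) = f g := by
  obtain ⟨F₁, hF₁, h₁⟩ := hf
  obtain ⟨F₂, hF₂, h₂⟩ := hM.level
  obtain ⟨F, hF, hle, hn⟩ := exists_normal_level (F₁ ⊔ F₂)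
  exact ⟨F, hF, hn,
    fun g hg => h₂ g (IntermediateField.fixingSubgroup_antitone le_sup_right (hle hg)),
    fun g s hs => h₁ g s (IntermediateField.fixingSubgroup_antitone le_sup_left (hle hs))⟩

/-- continuous 1-cocycles -/
def Z1 (M : Rep.{0} (ZMod p) G) : Submodule (ZMod p) (G → M) :=
  cocycles₁ M ⊓ levelCochains₁ r M

/-- 1-coboundaries -/
def B1 (M : Rep.{0} (ZMod p) G) : Submodule (ZMod p) (G → M) :=
  LinearMap.range (d₀₁ M).hom

theorem mem_B1_iff {M : Rep.{0} (ZMod p) G} {f : G → M} :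
    f ∈ B1 M ↔ ∃ m : M, ∀ g, M.ρ g m - m = f g := by
  simp only [B1, LinearMap.mem_range, funext_iff, d₀₁_hom_apply]

/-- continuous first cohomology -/
abbrev cH1 (M : Rep.{0} (ZMod p) G) : Type :=
  ↥(Z1 r M) ⧸ (B1 M).comap (Z1 r M).subtype

/-- the class of a 1-cocycle -/
abbrev h1mk (M : Rep.{0} (ZMod p) G) : ↥(Z1 r M) →ₗ[ZMod p] cH1 r M := Submodule.mkQ _

/-- continuous second cohomology -/
abbrev cH2 (M : Rep.{0} (ZMod p) G) : Type := continuousH2 r M

/-- the class of a 2-cocycle -/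
abbrev h2mk (M : Rep.{0} (ZMod p) G) : ↥(levelCocycles₂ r M) →ₗ[ZMod p] cH2 r M :=
  continuousH2π r M

/-- invariants -/
abbrev cH0 (M : Rep.{0} (ZMod p) G) : Submodule (ZMod p) M := M.ρ.invariants

theorem h1mk_eq_zero_iff {M : Rep.{0} (ZMod p) G} (z : Z1 r M) :
    h1mk r M z = 0 ↔ ∃ m : M, ∀ g, M.ρ g m - m = z.1 g := by
  simp [Submodule.Quotient.mk_eq_zero, mem_B1_iff]

section Map

variable {G' : Type} [Group G'] {r' : G' →* GQ} (f : G' →* G) (hf : ∀ g, r (f g) = r' g)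
variable {A : Rep.{0} (ZMod p) G} {B : Rep.{0} (ZMod p) G'} (φ : A →ₗ[ZMod p] B)
  (hφ : ∀ g a, φ (A.ρ (f g) a) = B.ρ g (φ a))

include hf hφ in
theorem pullPush_mem_Z1 {x : G → A} (hx : x ∈ Z1 r A) : cochainsPullPush₁ f φ x ∈ Z1 r' B := by
  refine ⟨?_, cochainsPullPush₁_mem_levelCochains₁ f hf φ hx.2⟩
  have h := (mem_cocycles₁_def x).1 hx.1
  refine (mem_cocycles₁_def _).2 fun g h' => ?_
  simp only [cochainsPullPush₁_apply, map_mul, ← hφ, ← map_sub, ← map_add, h, map_zero]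

/-- functoriality of `H¹` -/
def h1map : cH1 r A →ₗ[ZMod p] cH1 r' B :=
  Submodule.mapQ _ _ ((cochainsPullPush₁ f φ).restrict fun _ hx => pullPush_mem_Z1 r f hf φ hφ hx)
    fun x hx => by
      obtain ⟨m, hm⟩ := mem_B1_iff.1 hx
      exact mem_B1_iff.2 ⟨φ m, fun g => by
        simp only [Submodule.subtype_apply] at hm
        show _ = φ ((x : G → A) (f g))
        rw [← hm, map_sub, hφ]⟩

@[simp] theorem h1map_mk (z : Z1 r A) :
    h1map r f hf φ hφ (h1mk r A z) =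
      h1mk r' B ⟨cochainsPullPush₁ f φ z.1, pullPush_mem_Z1 r f hf φ hφ z.2⟩ := rfl

end Map

/-- functoriality of `H¹` in the module -/
abbrev h1push {A B : Rep.{0} (ZMod p) G} (φ : A →ₗ[ZMod p] B)
    (hφ : ∀ g a, φ (A.ρ g a) = B.ρ g (φ a)) : cH1 r A →ₗ[ZMod p] cH1 r B :=
  h1map r (MonoidHom.id G) (fun _ => rfl) φ hφ

/-- functoriality of `H²` in the module -/
abbrev h2push {A B : Rep.{0} (ZMod p) G} (φ : A →ₗ[ZMod p] B)
    (hφ : ∀ g a, φ (A.ρ g a) = B.ρ g (φ a)) : cH2 r A →ₗ[ZMod p] cH2 r B :=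
  continuousH2Map (MonoidHom.id G) (fun _ => rfl) φ hφ

section Cup

variable {A B C : Rep.{0} (ZMod p) G}

/-- equivariant bilinear maps -/
def IsEqv (φ : A →ₗ[ZMod p] B →ₗ[ZMod p] C) : Prop :=
  ∀ g a b, φ (A.ρ g a) (B.ρ g b) = C.ρ g (φ a b)

variable (φ : A →ₗ[ZMod p] B →ₗ[ZMod p] C)

/-- `C¹ × C¹ → C²` -/
def cup11 (a : G → A) (b : G → B) : G × G → C := fun g => φ (a g.1) (B.ρ g.1 (b g.2))

/-- `C⁰ × C¹ → C¹` -/
def cup01 (a : A) (b : G → B) : G → C := fun g => φ a (b g)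

/-- `C¹ × C⁰ → C¹` -/
def cup10 (a : G → A) (b : B) : G → C := fun g => φ (a g) (B.ρ g b)

/-- `C⁰ × C² → C²` -/
def cup02 (a : A) (b : G × G → B) : G × G → C := fun g => φ a (b g)

/-- `C² × C⁰ → C²` -/
def cup20 (a : G × G → A) (b : B) : G × G → C := fun g => φ (a g) (B.ρ (g.1 * g.2) b)

/-- `C¹ × C² → C³` -/
def cup12 (a : G → A) (b : G × G → B) : G × G × G → C :=
  fun g => φ (a g.1) (B.ρ g.1 (b g.2))

/-- `C² × C¹ → C³` -/
def cup21 (a : G × G → A) (b : G → B) : G × G × G → C :=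
  fun g => φ (a (g.1, g.2.1)) (B.ρ (g.1 * g.2.1) (b g.2.2))

variable {φ}

theorem cup11_level (hB : IsAdm r B) {a : G → A} {b : G → B} (ha : IsLevelConstant₁ r a)
    (hb : IsLevelConstant₁ r b) : IsLevelConstant₂ r (cup11 φ a b) := by
  obtain ⟨Fa, hFa, h'⟩ := ha
  obtain ⟨Fb, hFb, -, hρ, hb'⟩ := hB.exists_level r hb
  haveI := hFa; haveI := hFb
  refine ⟨Fa ⊔ Fb, inferInstance, fun g g' s s' hs hs' => ?_⟩
  show φ (a (g * s)) (B.ρ (g * s) (b (g' * s'))) = φ (a g) (B.ρ g (b g'))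
  rw [h' g s (IntermediateField.fixingSubgroup_antitone le_sup_left hs),
    hb' g' s' (IntermediateField.fixingSubgroup_antitone le_sup_right hs'), map_mul B.ρ,
    hρ s (IntermediateField.fixingSubgroup_antitone le_sup_right hs), mul_one]

theorem cup11_mem (hφ : IsEqv φ) (hB : IsAdm r B) (a : Z1 r A) (b : Z1 r B) :
    cup11 φ a.1 b.1 ∈ levelCocycles₂ r C := by
  refine ⟨?_, cup11_level r hB a.2.2 b.2.2⟩
  have ha := (mem_cocycles₁_def _).1 a.2.1
  have hb := (mem_cocycles₁_def _).1 b.2.1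
  refine (mem_cocycles₂_def _).2 fun g h j => ?_
  have e1 : a.1 (g * h) = A.ρ g (a.1 h) + a.1 g := by linear_combination (norm := module) -(ha g h)
  have e2 : b.1 (h * j) = B.ρ h (b.1 j) + b.1 h := by linear_combination (norm := module) -(hb h j)
  show C.ρ g (φ (a.1 h) (B.ρ h (b.1 j))) - φ (a.1 (g * h)) (B.ρ (g * h) (b.1 j))
    + φ (a.1 g) (B.ρ g (b.1 (h * j))) - φ (a.1 g) (B.ρ g (b.1 h)) = 0
  rw [← hφ, e1, e2, map_mul B.ρ, Module.End.mul_apply]
  simp only [map_add, LinearMap.add_apply]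
  abel

theorem cup11_left_mem (hφ : IsEqv φ) (m : A) (b : Z1 r B) {a : G → A}
    (ha : ∀ g, A.ρ g m - m = a g) : cup11 φ a b.1 ∈ levelCoboundaries₂ r C := by
  refine (mem_levelCoboundaries₂_iff r C _).2 ⟨cup01 φ m b.1, IsLevelConstant₁.comp b.2.2 (φ m), ?_⟩
  have hb := (mem_cocycles₁_def _).1 b.2.1
  funext ⟨g, h⟩
  have e2 : b.1 (g * h) = B.ρ g (b.1 h) + b.1 g := by linear_combination (norm := module) -(hb g h)
  rw [d₁₂_hom_apply]
  show C.ρ g (φ m (b.1 h)) - φ m (b.1 (g * h)) + φ m (b.1 g) = φ (a g) (B.ρ g (b.1 h))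
  rw [← hφ, e2, ← ha g]
  simp only [map_add, map_sub, LinearMap.sub_apply]
  abel

theorem cup11_right_mem (hφ : IsEqv φ) (hB : IsAdm r B) (a : Z1 r A) (n : B) {b : G → B}
    (hb : ∀ g, B.ρ g n - n = b g) : cup11 φ a.1 b ∈ levelCoboundaries₂ r C := by
  refine (mem_levelCoboundaries₂_iff r C _).2 ⟨-cup10 φ a.1 n, ?_, ?_⟩
  · obtain ⟨F, hF, -, hρ, ha'⟩ := hB.exists_level r a.2.2
    refine ⟨F, hF, fun g s hs => ?_⟩
    show -φ (a.1 (g * s)) (B.ρ (g * s) n) = -φ (a.1 g) (B.ρ g n)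
    rw [ha' g s hs, map_mul, hρ s hs, mul_one]
  have ha := (mem_cocycles₁_def _).1 a.2.1
  funext ⟨g, h⟩
  have e1 : a.1 (g * h) = A.ρ g (a.1 h) + a.1 g := by linear_combination (norm := module) -(ha g h)
  rw [map_neg, Pi.neg_apply, d₁₂_hom_apply]
  show -(C.ρ g (φ (a.1 h) (B.ρ h n)) - φ (a.1 (g * h)) (B.ρ (g * h) n) + φ (a.1 g) (B.ρ g n))
    = φ (a.1 g) (B.ρ g (b h))
  rw [← hφ, e1, ← hb h, map_mul B.ρ, Module.End.mul_apply]
  simp only [map_add, map_sub, LinearMap.add_apply]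
  abel

variable (φ) in
/-- cup product of two cocycles -/
def cupZ (hφ : IsEqv φ) (hB : IsAdm r B) : Z1 r A →ₗ[ZMod p] Z1 r B →ₗ[ZMod p] cH2 r C :=
  LinearMap.mk₂ (ZMod p) (fun a b => h2mk r C ⟨cup11 φ a.1 b.1, cup11_mem r hφ hB a b⟩)
    (fun a a' b => by rw [← map_add]; congr 1; ext g; simp [cup11])
    (fun c a b => by rw [← map_smul]; congr 1; ext g; simp [cup11])
    (fun a b b' => by rw [← map_add]; congr 1; ext g; simp [cup11])
    (fun c a b => by rw [← map_smul]; congr 1; ext g; simp [cup11])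

theorem cupZ_left (hφ : IsEqv φ) (hB : IsAdm r B) (a : Z1 r A)
    (ha : a ∈ (B1 A).comap (Z1 r A).subtype) : cupZ r φ hφ hB a = 0 := by
  obtain ⟨m, hm⟩ := mem_B1_iff.1 ha
  exact LinearMap.ext fun b => (continuousH2π_eq_zero_iff r C _).2 (cup11_left_mem r hφ m b hm)

theorem cupZ_right (hφ : IsEqv φ) (hB : IsAdm r B) (a : Z1 r A) (b : Z1 r B)
    (hb : b ∈ (B1 B).comap (Z1 r B).subtype) : cupZ r φ hφ hB a b = 0 := by
  obtain ⟨n, hn⟩ := mem_B1_iff.1 hb
  exact (continuousH2π_eq_zero_iff r C _).2 (cup11_right_mem r hφ hB a n hn)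

variable (φ) in
/-- the cup product `H¹ × H¹ → H²` -/
def cupH (hφ : IsEqv φ) (hB : IsAdm r B) : cH1 r A →ₗ[ZMod p] cH1 r B →ₗ[ZMod p] cH2 r C :=
  (Submodule.liftQ _ ((Submodule.liftQ _ (cupZ r φ hφ hB)
    (fun a ha => LinearMap.mem_ker.2 (cupZ_left r hφ hB a ha))).flip)
    (fun b hb => LinearMap.mem_ker.2 (LinearMap.ext fun x => by
      obtain ⟨a, rfl⟩ := Submodule.mkQ_surjective _ x
      exact cupZ_right r hφ hB a b hb))).flip

@[simp] theorem cupH_mk (hφ : IsEqv φ) (hB : IsAdm r B) (a : Z1 r A) (b : Z1 r B) :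
    cupH r φ hφ hB (h1mk r A a) (h1mk r B b) = h2mk r C ⟨cup11 φ a.1 b.1, cup11_mem r hφ hB a b⟩ :=
  rfl

theorem cup02_mem (hφ : IsEqv φ) (m : cH0 A) (c : levelCocycles₂ r B) :
    cup02 φ m.1 c.1 ∈ levelCocycles₂ r C := by
  refine ⟨(mem_cocycles₂_def _).2 fun g h j => ?_, IsLevelConstant₂.comp c.2.2 (φ m.1)⟩
  have hc := (mem_cocycles₂_def _).1 c.2.1 g h j
  show C.ρ g (φ m.1 (c.1 (h, j))) - φ m.1 (c.1 (g * h, j)) + φ m.1 (c.1 (g, h * j))
    - φ m.1 (c.1 (g, h)) = 0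
  rw [← hφ, m.2 g, ← map_sub, ← map_add, ← map_sub, hc, map_zero]

variable (φ) in
/-- cup product of an invariant with a 2-cocycle -/
def cupZ02 (hφ : IsEqv φ) : cH0 A →ₗ[ZMod p] levelCocycles₂ r B →ₗ[ZMod p] cH2 r C :=
  LinearMap.mk₂ (ZMod p) (fun m c => h2mk r C ⟨cup02 φ m.1 c.1, cup02_mem r hφ m c⟩)
    (fun a a' b => by rw [← map_add]; congr 1; ext g; simp [cup02])
    (fun c a b => by rw [← map_smul]; congr 1; ext g; simp [cup02])
    (fun a b b' => by rw [← map_add]; congr 1; ext g; simp [cup02])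
    (fun c a b => by rw [← map_smul]; congr 1; ext g; simp [cup02])

variable (φ) in
/-- the cup product `H⁰ × H² → H²` -/
def cupH02 (hφ : IsEqv φ) : cH0 A →ₗ[ZMod p] cH2 r B →ₗ[ZMod p] cH2 r C :=
  (Submodule.liftQ _ (cupZ02 r φ hφ).flip fun c hc => LinearMap.mem_ker.2 <| LinearMap.ext fun m => by
    obtain ⟨x, hx, hxc⟩ := (mem_levelCoboundaries₂_iff r B _).1 hc
    refine (continuousH2π_eq_zero_iff r C _).2
      ((mem_levelCoboundaries₂_iff r C _).2 ⟨cup01 φ m.1 x, IsLevelConstant₁.comp hx (φ m.1), ?_⟩)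
    funext ⟨g, h⟩
    simp only [Submodule.subtype_apply] at hxc
    show _ = φ m.1 (c.1 (g, h))
    rw [← hxc, d₁₂_hom_apply, d₁₂_hom_apply]
    show C.ρ g (φ m.1 (x h)) - φ m.1 (x (g * h)) + φ m.1 (x g) = _
    rw [← hφ, m.2 g, map_add, map_sub]).flip

end Cup

section Ind

variable (H : Subgroup G) (N : Rep.{0} (ZMod p) G)

/-- the action on functions `G/H → N` -/
def indRho : Representation (ZMod p) G (G ⧸ H → N) where
  toFun g :=
    { toFun := fun f x => N.ρ g (f (g⁻¹ • x))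
      map_add' := fun f f' => funext fun x => by simp
      map_smul' := fun c f => funext fun x => by simp }
  map_one' := by
    refine LinearMap.ext fun f => funext fun x => ?_
    simp
  map_mul' g h := by
    refine LinearMap.ext fun f => funext fun x => ?_
    simp [mul_smul, map_mul, Module.End.mul_apply]

/-- the induced module `Map(G/H, N)` -/
abbrev ind : Rep.{0} (ZMod p) G := Rep.of (indRho H N)

theorem ind_apply (g : G) (f : G ⧸ H → N) (x : G ⧸ H) :
    (ind H N).ρ g f x = N.ρ g (f (g⁻¹ • x)) := rfl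

/-- sum over the cosets -/
def indSum [Finite (G ⧸ H)] : ind H N →ₗ[ZMod p] N :=
  letI := Fintype.ofFinite (G ⧸ H)
  { toFun := fun f => ∑ x, f x
    map_add' := fun f f' => Finset.sum_add_distrib
    map_smul' := fun c f => by simp [Finset.smul_sum] }

/-- constant functions -/
def indConst : N →ₗ[ZMod p] ind H N :=
  LinearMap.pi fun _ => LinearMap.id

/-- for normal `H`, the automorphism `f ↦ (x ↦ f (x g))` -/
def indRight [H.Normal] (g : G) : ind H N →ₗ[ZMod p] ind H N :=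
  LinearMap.funLeft (ZMod p) N fun x : G ⧸ H => x * (g : G ⧸ H)

theorem indRight_eqv [H.Normal] (g h : G) (f : ind H N) :
    indRight H N g ((ind H N).ρ h f) = (ind H N).ρ h (indRight H N g f) := by
  funext x
  show N.ρ h (f (h⁻¹ • (x * (g : G ⧸ H)))) = N.ρ h (f ((h⁻¹ • x) * (g : G ⧸ H)))
  congr 2
  induction x using QuotientGroup.induction_on with
  | H a =>
    show ((h⁻¹ * (a * g) : G) : G ⧸ H) = ((h⁻¹ * a * g : G) : G ⧸ H)
    rw [mul_assoc]

end Ind

end General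

/-- `μ_p`, written additively -/
abbrev mu (p : ℕ) [Fact p.Prime] : Rep.{0} (ZMod p) GQ :=
  Rep.of ((Representation.trivial (ZMod p) GQ (ZMod p)).twist (ExtCitation.cycloChar p))

/-- the trivial module `𝔽_p` -/
abbrev one (p : ℕ) : Rep.{0} (ZMod p) GQ := Rep.of (Representation.trivial (ZMod p) GQ (ZMod p))

/-- the Tate dual -/
abbrev dual' (M : Rep.{0} (ZMod p) GQ) : Rep.{0} (ZMod p) GQ :=
  M.dualTwist (ExtCitation.cycloChar p)

theorem isAdm_mu (p : ℕ) [Fact p.Prime] : IsAdm (MonoidHom.id GQ) (mu p) := by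
  haveI := FLTAgent.Common.isAlgebraic_qbar
  obtain ⟨ζ, hζ⟩ := HasEnoughRootsOfUnity.exists_primitiveRoot (AlgebraicClosure ℚ) p
  refine ⟨inferInstance, IntermediateField.adjoin ℚ {ζ},
    IntermediateField.adjoin.finiteDimensional (Algebra.IsIntegral.isIntegral ζ), fun g hg => ?_⟩
  have hgz : g ζ = ζ := (IntermediateField.mem_fixingSubgroup_iff _ _).1 hg ζ
    (IntermediateField.subset_adjoin ℚ _ rfl)
  have h1 : ExtCitation.cycloChar p g = 1 := by
    haveI : NeZero p := ⟨(Fact.out : p.Prime).ne_zero⟩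
    apply Units.ext
    rw [Units.val_one]
    exact ((modularCyclotomicCharacter.unique (AlgebraicClosure ℚ)
      (g := (g : AlgebraicClosure ℚ ≃+* AlgebraicClosure ℚ))
      (ExtCitation.card_rootsOfUnity_eq_self p) (c := 1) fun t ht => by
        obtain ⟨i, -, hi⟩ := hζ.eq_pow_of_pow_eq_one
          ((mem_rootsOfUnity' p t).1 ht)
        show g (t : AlgebraicClosure ℚ) = _
        rw [ZMod.val_one, pow_one, ← hi, map_pow, hgz])).symm
  refine LinearMap.ext fun x => ?_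
  simp [Representation.twist_apply, h1]

theorem isAdm_dual {M : Rep.{0} (ZMod p) GQ} (hM : IsAdm (MonoidHom.id GQ) M) :
    IsAdm (MonoidHom.id GQ) (dual' M) := by
  haveI := hM.finite
  obtain ⟨F, hF, hρ⟩ := hM.level
  obtain ⟨F', hF', hρ'⟩ := (isAdm_mu p).level
  haveI := hF; haveI := hF'
  refine ⟨inferInstanceAs (Module.Finite (ZMod p) (Module.Dual (ZMod p) M)),
    F ⊔ F', inferInstance, fun g hg => ?_⟩
  have hχ : (ExtCitation.cycloChar p g : ZMod p) = 1 := by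
    simpa [Representation.twist_apply] using
      LinearMap.congr_fun (hρ' g (IntermediateField.fixingSubgroup_antitone le_sup_right hg)) 1
  have hi : M.ρ g⁻¹ = 1 :=
    hρ g⁻¹ (IntermediateField.fixingSubgroup_antitone le_sup_left (inv_mem hg))
  refine LinearMap.ext fun f => LinearMap.ext fun m => ?_
  have h := Rep.dualTwist_ρ_apply M (ExtCitation.cycloChar p) g f
  rw [hχ, hi, one_smul] at h
  rw [h]
  rfl

theorem IsAdm.res {M : Rep.{0} (ZMod p) GQ} (hM : IsAdm (MonoidHom.id GQ) M) {G : Type} [Group G]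
    (r : G →* GQ) : IsAdm r (Rep.res r M) := by
  obtain ⟨F, hF, h⟩ := hM.level
  exact ⟨hM.finite, F, hF, fun g hg => h (r g) hg⟩

section Local

variable (q : Nat.Primes)

/-- `H¹` of the local group at `q` -/
abbrev lH1 (M : Rep.{0} (ZMod p) GQ) : Type := cH1 (loc q) (Rep.res (loc q) M)

/-- `H²` of the local group at `q` -/
abbrev lH2 (M : Rep.{0} (ZMod p) GQ) : Type := cH2 (loc q) (Rep.res (loc q) M)

/-- `H⁰` of the local group at `q` -/
abbrev lH0 (M : Rep.{0} (ZMod p) GQ) : Submodule (ZMod p) M := cH0 (Rep.res (loc q) M)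

/-- localisation -/
def res1 (M : Rep.{0} (ZMod p) GQ) : cH1 (MonoidHom.id GQ) M →ₗ[ZMod p] lH1 q M :=
  h1map (MonoidHom.id GQ) (loc q) (fun _ => rfl) (LinearMap.id : M →ₗ[ZMod p] Rep.res (loc q) M)
    fun _ _ => rfl

/-- localisation in degree 2 -/
def res2 (M : Rep.{0} (ZMod p) GQ) : cH2 (MonoidHom.id GQ) M →ₗ[ZMod p] lH2 q M :=
  continuousH2Map (rH := MonoidHom.id GQ) (rG := loc q) (loc q) (fun _ => rfl)
    (LinearMap.id : M →ₗ[ZMod p] Rep.res (loc q) M) fun _ _ => rfl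

/-- evaluation `M × M' → μ_p` -/
def evM (M : Rep.{0} (ZMod p) GQ) : M →ₗ[ZMod p] dual' M →ₗ[ZMod p] mu p :=
  Module.Dual.eval (ZMod p) M

/-- evaluation `M' × M → μ_p` -/
def evD (M : Rep.{0} (ZMod p) GQ) : dual' M →ₗ[ZMod p] M →ₗ[ZMod p] mu p :=
  LinearMap.id

theorem evD_eqv (M : Rep.{0} (ZMod p) GQ) : IsEqv (evD M) := fun g f m => by
  show ((ExtCitation.cycloChar p g : ZMod p) • (f ∘ₗ M.ρ g⁻¹)) (M.ρ g m) = _
  simp [evD, Representation.twist_apply, ← Module.End.mul_apply, ← map_mul]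

theorem evM_eqv (M : Rep.{0} (ZMod p) GQ) : IsEqv (evM M) := fun g m f => evD_eqv M g f m

/-- the local pairing `H¹(M) × H¹(M') → H²(μ_p)` -/
def pair11 {M : Rep.{0} (ZMod p) GQ} (hM : IsAdm (MonoidHom.id GQ) M) :
    lH1 q M →ₗ[ZMod p] lH1 q (dual' M) →ₗ[ZMod p] lH2 q (mu p) :=
  cupH (loc q) (A := Rep.res (loc q) M) (B := Rep.res (loc q) (dual' M))
    (C := Rep.res (loc q) (mu p)) (evM M) (fun g => evM_eqv M (loc q g)) ((isAdm_dual hM).res _)

/-- the local pairing `H⁰(M') × H²(M) → H²(μ_p)` -/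
def pair02 (M : Rep.{0} (ZMod p) GQ) :
    lH0 q (dual' M) →ₗ[ZMod p] lH2 q M →ₗ[ZMod p] lH2 q (mu p) :=
  cupH02 (loc q) (A := Rep.res (loc q) (dual' M)) (B := Rep.res (loc q) M)
    (C := Rep.res (loc q) (mu p)) (evD M) (fun g => evD_eqv M (loc q g))

/-- unramified at `q` -/
def IsUnrAt (M : Rep.{0} (ZMod p) GQ) : Prop := ∀ g ∈ inert q, M.ρ (loc q g) = 1

/-- the classes with a representative vanishing on inertia -/
def unr1 (M : Rep.{0} (ZMod p) GQ) : Submodule (ZMod p) (lH1 q M) :=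
  (({ carrier := {z | ∀ s ∈ inert q, z.1 s = 0}
      add_mem' := fun ha hb s hs => by
        simp only [Submodule.coe_add, Pi.add_apply, ha s hs, hb s hs, add_zero]
      zero_mem' := fun _ _ => rfl
      smul_mem' := fun c _ ha s hs => by
        simp only [SetLike.val_smul, Pi.smul_apply, ha s hs, smul_zero] } :
    Submodule (ZMod p) (Z1 (loc q) (Rep.res (loc q) M)))).map (h1mk _ _)

end Local

/-- classes unramified outside `T` -/
def H1T (T : Finset Nat.Primes) (M : Rep.{0} (ZMod p) GQ) :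
    Submodule (ZMod p) (cH1 (MonoidHom.id GQ) M) :=
  ⨅ (q : Nat.Primes) (_ : q ∉ T), (unr1 q M).comap (res1 q M)

/-- everywhere locally trivial classes -/
def sha1g (M : Rep.{0} (ZMod p) GQ) : Submodule (ZMod p) (cH1 (MonoidHom.id GQ) M) :=
  ⨅ q : Nat.Primes, LinearMap.ker (res1 q M)

/-- everywhere locally trivial classes of degree 2 -/
def sha2g (M : Rep.{0} (ZMod p) GQ) : Submodule (ZMod p) (cH2 (MonoidHom.id GQ) M) :=
  ⨅ q : Nat.Primes, LinearMap.ker (res2 q M)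

/-- invariants of complex conjugation -/
abbrev h0inf (M : Rep.{0} (ZMod p) GQ) : Submodule (ZMod p) M :=
  (Rep.res ExtCitation.archimedeanLoc M).ρ.invariants

/-- unramified outside `S` -/
def IsUnrOutside (S : Finset Nat.Primes) (M : Rep.{0} (ZMod p) GQ) : Prop :=
  ∀ q : Nat.Primes, q ∉ S → IsUnrAt q M

/-- the reciprocity package: local invariant maps with the fundamental exact sequence -/
structure Recip (p : ℕ) [Fact p.Prime] where
  inv : ∀ q : Nat.Primes, lH2 q (mu p) ≃ₗ[ZMod p] ZMod p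
  finite_support : ∀ c : cH2 (MonoidHom.id GQ) (mu p), {q | res2 q (mu p) c ≠ 0}.Finite
  sum_zero : ∀ c : cH2 (MonoidHom.id GQ) (mu p), ∑ᶠ q, inv q (res2 q (mu p) c) = 0
  exists_of_sum_zero : ∀ b : ∀ q, lH2 q (mu p), {q | b q ≠ 0}.Finite →
    ∑ᶠ q, inv q (b q) = 0 → ∃ c : cH2 (MonoidHom.id GQ) (mu p), ∀ q, res2 q (mu p) c = b q
  injective : ∀ c : cH2 (MonoidHom.id GQ) (mu p), (∀ q, res2 q (mu p) c = 0) → c = 0

end FLTAgent.PT
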