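import Fermat.Agent.PT.Lattice

/-!
`T`-units of a number field: rank, `p`-th power classes, and finite sets of primes outside which every
divisor is principal.
-/

set_option autoImplicit false
set_option linter.unusedSectionVars false

noncomputable section

open IsDedekindDomain NumberField NumberField.InfinitePlace
open scoped nonZeroDivisors

namespace FLTAgent.PT

variable {K : Type*} [Field K] [NumberField K]

/-- the primes of a number field -/
abbrev Prm (K : Type*) [Field K] [NumberField K] : Type _ := HeightOneSpectrum (𝓞 K)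

/-- the `T`-units -/
abbrev TU (T : Finset (Prm K)) : Subgroup Kˣ := (↑T : Set (Prm K)).unit K

theorem mem_TU {T : Finset (Prm K)} {x : Kˣ} :
    x ∈ TU T ↔ ∀ v : Prm K, v ∉ T → v.valuation K (x : K) = 1 :=
  ⟨fun h v hv => h v (by simpa using hv), fun h v hv => h v (by simpa using hv)⟩

/-- the order at a prime -/
def ordv (v : Prm K) : Additive Kˣ →+ ℤ := -v.valuationOfNeZero.toAdditiveLeft

theorem valuation_eq_exp_ordv (v : Prm K) (x : Kˣ) :
    v.valuation K (x : K) = WithZero.exp (-ordv v (Additive.ofMul x)) := by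
  rw [ordv, AddMonoidHom.neg_apply, neg_neg]
  exact (v.valuationOfNeZero_eq x).symm

theorem ordv_eq_zero_iff (v : Prm K) (x : Kˣ) :
    ordv v (Additive.ofMul x) = 0 ↔ v.valuation K (x : K) = 1 := by
  rw [valuation_eq_exp_ordv, ← WithZero.exp_zero, WithZero.exp_inj, neg_eq_zero]

/-- units -/
theorem exists_unit_of_ordv_eq_zero {x : Kˣ} (h : ∀ v : Prm K, v.valuation K (x : K) = 1) :
    ∃ u : (𝓞 K)ˣ, ((u : 𝓞 K) : K) = x := by
  obtain ⟨a, ha⟩ := HeightOneSpectrum.mem_integers_of_valuation_le_one K (x : K) fun v => (h v).le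
  obtain ⟨b, hb⟩ := HeightOneSpectrum.mem_integers_of_valuation_le_one K ((x⁻¹ : Kˣ) : K) fun v => by
    rw [Units.val_inv_eq_inv_val, map_inv₀, h v, inv_one]
  have hab : a * b = 1 := FaithfulSMul.algebraMap_injective (𝓞 K) K (by
    rw [map_mul, map_one, ha, hb, Units.mul_inv])
  exact ⟨⟨a, b, hab, by rw [mul_comm, hab]⟩, ha⟩

/-- units inside the `T`-units -/
def unitsTU (T : Finset (Prm K)) : Additive (𝓞 K)ˣ →+ Additive ↥(TU T) :=
  MonoidHom.toAdditive
    ((Units.map (algebraMap (𝓞 K) K : 𝓞 K →* K)).codRestrict (TU T) fun u => mem_TU.mpr fun v _ => by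
      rw [← HeightOneSpectrum.valuationOfNeZero_eq, v.valuation_of_unit_eq]; rfl)

theorem unitsTU_injective (T : Finset (Prm K)) : Function.Injective (unitsTU T) := fun a b h =>
  Units.ext (FaithfulSMul.algebraMap_injective (𝓞 K) K
    (congrArg (fun x : Additive ↥(TU T) => ((Additive.toMul x : ↥(TU T)) : Kˣ).val) h))

/-- the orders at `T` -/
def ordT (T : Finset (Prm K)) : Additive ↥(TU T) →+ (↥T → ℤ) :=
  AddMonoidHom.mk' (fun x v => ordv v.1 (Additive.ofMul ((Additive.toMul x : ↥(TU T)) : Kˣ)))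
    fun x y => funext fun v => by
      show ordv v.1 _ = ordv v.1 _ + ordv v.1 _
      rw [← map_add]
      rfl

theorem mem_range_unitsTU {T : Finset (Prm K)} {x : Additive ↥(TU T)} :
    x ∈ (unitsTU T).range ↔ ordT T x = 0 := by
  constructor
  · rintro ⟨u, rfl⟩
    funext v
    exact (ordv_eq_zero_iff _ _).mpr (by
      rw [← HeightOneSpectrum.valuationOfNeZero_eq]
      exact congrArg _ (v.1.valuation_of_unit_eq (K := K) (Additive.toMul u)))
  · intro h
    obtain ⟨u, hu⟩ := exists_unit_of_ordv_eq_zero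
      (x := ((Additive.toMul x : ↥(TU T)) : Kˣ)) fun v => by
        by_cases hv : v ∈ T
        · exact (ordv_eq_zero_iff _ _).mp (congrFun h ⟨v, hv⟩)
        · exact mem_TU.mp (Additive.toMul x).2 v hv
    exact ⟨Additive.ofMul u, Subtype.ext (Units.ext hu)⟩

/-- a prime has an element supported at it alone -/
theorem exists_supported (v : Prm K) : ∃ x : Kˣ,
    (∀ w : Prm K, w ≠ v → w.valuation K (x : K) = 1) ∧ v.valuation K (x : K) ≠ 1 := by
  classical
  set n := Fintype.card (ClassGroup (𝓞 K))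
  have hn : n ≠ 0 := Fintype.card_ne_zero
  have h0 : v.asIdeal ∈ (Ideal (𝓞 K))⁰ := mem_nonZeroDivisors_iff_ne_zero.mpr v.ne_bot
  obtain ⟨π, hπ⟩ := (ClassGroup.mk0_eq_one_iff (I := v.asIdeal ^ n) (pow_mem h0 n)).mp (by
    rw [show (⟨v.asIdeal ^ n, pow_mem h0 n⟩ : (Ideal (𝓞 K))⁰) = ⟨v.asIdeal, h0⟩ ^ n from rfl,
      map_pow]
    exact pow_card_eq_one)
  rw [Ideal.submodule_span_eq] at hπ
  have hπ0 : π ≠ 0 := fun h => pow_ne_zero n v.ne_bot (by rw [hπ, h, Ideal.span_singleton_zero]; rfl)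
  refine ⟨Units.mk0 (algebraMap (𝓞 K) K π) ((map_ne_zero_iff _
    (FaithfulSMul.algebraMap_injective (𝓞 K) K)).mpr hπ0), fun w hw => ?_, ?_⟩
  · rw [Units.val_mk0, w.valuation_eq_one_iff_notMem]
    intro hmem
    refine hw (HeightOneSpectrum.ext ?_)
    have h1 : v.asIdeal ^ n ≤ w.asIdeal := by
      rw [hπ, Ideal.span_singleton_le_iff_mem]; exact hmem
    exact (v.isMaximal.eq_of_le w.isPrime.ne_top (w.isPrime.le_of_pow_le h1)).symm
  · rw [Units.val_mk0, Ne, v.valuation_eq_one_iff_notMem, not_not]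
    exact Ideal.pow_le_self hn (by rw [hπ]; exact Ideal.mem_span_singleton_self π)

theorem finite_finrank_TU (T : Finset (Prm K)) :
    Module.Finite ℤ (Additive ↥(TU T)) ∧
      Module.finrank ℤ (Additive ↥(TU T)) = Units.rank K + T.card := by
  classical
  set g := (ordT T).toIntLinearMap
  have hker : LinearMap.ker g = LinearMap.range (unitsTU T).toIntLinearMap := by
    ext x
    exact mem_range_unitsTU.symm
  haveI : Module.Finite ℤ ↥(LinearMap.ker g) := by
    rw [hker]; exact Module.Finite.range _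
  haveI : Module.Finite ℤ (Additive ↥(TU T) ⧸ LinearMap.ker g) :=
    Module.Finite.equiv g.quotKerEquivRange.symm
  haveI hfin : Module.Finite ℤ (Additive ↥(TU T)) := Module.Finite.of_submodule_quotient (LinearMap.ker g)
  refine ⟨hfin, ?_⟩
  rw [← Submodule.finrank_quotient_add_finrank (LinearMap.ker g), g.quotKerEquivRange.finrank_eq, hker,
    LinearMap.finrank_range_of_inj (f := (unitsTU T).toIntLinearMap) (unitsTU_injective T), Units.finrank_eq, add_comm]
  congr 1
  refine le_antisymm ((Submodule.finrank_le _).trans_eq (by simp)) ?_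
  choose x hx hxv using fun v : ↥T => exists_supported v.1
  have hxT : ∀ v : ↥T, x v ∈ TU T := fun v => mem_TU.mpr fun w hw =>
    hx v w fun h => hw (h ▸ v.2)
  have hli : LinearIndependent ℤ fun v : ↥T => g (Additive.ofMul ⟨x v, hxT v⟩) := by
    rw [Fintype.linearIndependent_iff]
    intro c hc w
    have h := congrFun hc w
    rw [Finset.sum_apply, Finset.sum_eq_single w] at h
    · refine (mul_eq_zero.mp h).resolve_right fun h0 => hxv w ?_
      exact (ordv_eq_zero_iff _ _).mp h0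
    · intro v _ hvw
      show c v * ordv w.1 (Additive.ofMul (x v)) = 0
      rw [(ordv_eq_zero_iff _ _).mpr (hx v w.1 fun h => hvw (Subtype.ext h.symm)), mul_zero]
    · simp
  rw [← Fintype.card_coe T, ← finrank_span_eq_card hli]
  exact Submodule.finrank_mono
    (Submodule.span_le.mpr (Set.range_subset_iff.mpr fun v => LinearMap.mem_range_self g _))

/-- the `p`-th power classes of the `T`-units -/
theorem index_pow_TU {p : ℕ} (hp : p.Prime) (hp2 : p ≠ 2) {ζ : K} (hζ : IsPrimitiveRoot ζ p)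
    (T : Finset (Prm K)) :
    (powMonoidHom p : ↥(TU T) →* ↥(TU T)).range.index = p ^ (T.card + nrComplexPlaces K) := by
  classical
  haveI : NeZero p := ⟨hp.ne_zero⟩
  haveI := (finite_finrank_TU T).1
  have h := (index_range_natCast (A := Additive ↥(TU T)) hp.ne_zero).1
  have hr : nrRealPlaces K = 0 := hζ.nrRealPlaces_eq_zero_of_two_lt (by have := hp.two_le; omega)
  have hrank : Units.rank K + 1 = nrComplexPlaces K := by
    have h1 := card_eq_nrRealPlaces_add_nrComplexPlaces K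
    have h2 : 0 < Fintype.card (InfinitePlace K) := Fintype.card_pos
    unfold Units.rank
    omega
  have hk : Nat.card ((p : Module.End ℤ (Additive ↥(TU T))).toAddMonoidHom.ker) = p := by
    have hu : ∀ i : ℕ, Units.mk0 ζ (hζ.ne_zero hp.ne_zero) ^ i ∈ TU T := by
      intro i
      refine pow_mem (mem_TU.mpr fun v _ => ?_) i
      rw [← HeightOneSpectrum.valuationOfNeZero_eq]
      have : v.valuationOfNeZero (Units.mk0 ζ (hζ.ne_zero hp.ne_zero)) ^ p = 1 := by
        rw [← map_pow, show Units.mk0 ζ (hζ.ne_zero hp.ne_zero) ^ p = 1 from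
          Units.ext (by simp [hζ.pow_eq_one]), map_one]
      rw [(pow_eq_one_iff_left hp.ne_zero).mp this]
      rfl
    refine (Nat.card_eq_of_equiv_fin (Equiv.ofBijective (fun i : Fin p =>
      (⟨Additive.ofMul ⟨_, hu i⟩, ?_⟩ : (p : Module.End ℤ (Additive ↥(TU T))).toAddMonoidHom.ker))
      ⟨fun i j e => ?_, fun x => ?_⟩).symm)
    · show (p : Module.End ℤ (Additive ↥(TU T))) _ = 0
      rw [Module.End.natCast_apply]
      refine Subtype.ext (Units.ext ?_)
      show (((Units.mk0 ζ (hζ.ne_zero hp.ne_zero) ^ (i : ℕ)) ^ p : Kˣ) : K) = 1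
      rw [Units.val_pow_eq_pow_val, Units.val_pow_eq_pow_val, Units.val_mk0, ← pow_mul, mul_comm,
        pow_mul, hζ.pow_eq_one, one_pow]
    · refine Fin.ext (hζ.pow_inj i.2 j.2 ?_)
      have := congrArg (fun y => ((Additive.toMul y.1 : ↥(TU T)) : Kˣ).val) e
      simpa using this
    · have hx : (((Additive.toMul x.1 : ↥(TU T)) : Kˣ) : K) ^ p = 1 := by
        have h0 : p • x.1 = 0 := (Module.End.natCast_apply p x.1).symm.trans x.2
        have e : ((Additive.toMul x.1 : ↥(TU T)) : Kˣ) ^ p = 1 :=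
          congrArg (fun y : Additive ↥(TU T) => ((Additive.toMul y : ↥(TU T)) : Kˣ)) h0
        rw [← Units.val_pow_eq_pow_val, e, Units.val_one]
      obtain ⟨i, hi, hie⟩ := hζ.eq_pow_of_pow_eq_one hx
      exact ⟨⟨i, hi⟩, Subtype.ext (Subtype.ext (Units.ext ((Units.val_pow_eq_pow_val _ i).trans hie)))⟩
  rw [hk, (finite_finrank_TU T).2, ← pow_succ, show Units.rank K + T.card + 1 =
    T.card + nrComplexPlaces K by omega] at h
  rw [← h, ← AddSubgroup.index_toSubgroup]
  rfl

/-- every divisor outside `T` is principal -/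
def TrivCl (T : Finset (Prm K)) : Prop :=
  ∀ v : Prm K, v ∉ T → ∃ x : Kˣ, ordv v (Additive.ofMul x) = 1 ∧
    ∀ w : Prm K, w ∉ T → w ≠ v → ordv w (Additive.ofMul x) = 0

theorem TrivCl.mono {T T' : Finset (Prm K)} (h : TrivCl T) (hT : T ⊆ T') : TrivCl T' :=
  fun v hv => (h v fun h' => hv (hT h')).imp fun _ hx =>
    ⟨hx.1, fun w hw hwv => hx.2 w (fun h' => hw (hT h')) hwv⟩

theorem TrivCl.exists_ord {T : Finset (Prm K)} (h : TrivCl T) (e : Prm K →₀ ℤ) :
    ∃ x : Kˣ, ∀ v : Prm K, v ∉ T → ordv v (Additive.ofMul x) = e v := by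
  classical
  induction e using Finsupp.induction with
  | zero => exact ⟨1, fun v _ => map_zero (ordv v)⟩
  | single_add v n e _ _ ih =>
    obtain ⟨y, hy⟩ := ih
    by_cases hv : v ∈ T
    · refine ⟨y, fun w hw => ?_⟩
      rw [hy w hw, Finsupp.add_apply, Finsupp.single_eq_of_ne (fun e => hw (by subst e; exact hv)), zero_add]
    · obtain ⟨x, hx, hx'⟩ := h v hv
      refine ⟨x ^ n * y, fun w hw => ?_⟩
      rw [ofMul_mul, ofMul_zpow, map_add, map_zsmul, hy w hw, Finsupp.add_apply]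
      rcases eq_or_ne w v with rfl | hwv
      · rw [hx, Finsupp.single_eq_same, smul_eq_mul, mul_one]
      · rw [hx' w hw hwv, smul_zero, Finsupp.single_eq_of_ne hwv]

theorem exists_trivCl (T₀ : Finset (Prm K)) : ∃ T, T₀ ⊆ T ∧ TrivCl T := by
  classical
  choose J hJ using fun c : ClassGroup (𝓞 K) => ClassGroup.mk0_surjective c
  have hfin : (⋃ c, {v : Prm K | v.asIdeal ∣ (J c : Ideal (𝓞 K))}).Finite :=
    Set.finite_iUnion fun c =>
      Ideal.finite_factors (mem_nonZeroDivisors_iff_ne_zero.mp (J c).2)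
  refine ⟨T₀ ∪ hfin.toFinset, Finset.subset_union_left, fun v hv => ?_⟩
  have hvJ : ∀ (w : Prm K) c, w ∉ T₀ ∪ hfin.toFinset → ¬ w.asIdeal ∣ (J c : Ideal (𝓞 K)) :=
    fun w c hw h => hw (Finset.mem_union_right _
      (hfin.mem_toFinset.mpr (Set.mem_iUnion.mpr ⟨c, h⟩)))
  have h0 : v.asIdeal ∈ (Ideal (𝓞 K))⁰ := mem_nonZeroDivisors_iff_ne_zero.mpr v.ne_bot
  set I : (Ideal (𝓞 K))⁰ := ⟨v.asIdeal, h0⟩ * J (ClassGroup.mk0 ⟨v.asIdeal, h0⟩)⁻¹
  obtain ⟨π, hπ⟩ := (ClassGroup.mk0_eq_one_iff (I := (I : Ideal (𝓞 K))) I.2).mp (by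
    rw [Subtype.coe_eta, map_mul, hJ, mul_inv_cancel])
  rw [Ideal.submodule_span_eq, Submonoid.coe_mul] at hπ
  have hπ0 : π ≠ 0 := fun h => (mem_nonZeroDivisors_iff_ne_zero.mp I.2) (by
    rw [Submonoid.coe_mul, hπ, h, Ideal.span_singleton_zero]; rfl)
  refine ⟨Units.mk0 (algebraMap (𝓞 K) K π) ((map_ne_zero_iff _
    (FaithfulSMul.algebraMap_injective (𝓞 K) K)).mpr hπ0), ?_, fun w hw hwv => ?_⟩
  · have h1 : v.intValuation π ≤ WithZero.exp (-(1 : ℕ) : ℤ) := by
      rw [v.intValuation_le_pow_iff_dvd, ← hπ, pow_one]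
      exact dvd_mul_right _ _
    have h2 : ¬ v.intValuation π ≤ WithZero.exp (-(2 : ℕ) : ℤ) := by
      rw [v.intValuation_le_pow_iff_dvd, ← hπ, pow_two]
      exact fun h => hvJ v _ hv ((mul_dvd_mul_iff_left v.ne_bot).mp h)
    rw [← HeightOneSpectrum.valuation_of_algebraMap (K := K)] at h1 h2
    have e := valuation_eq_exp_ordv v (Units.mk0 (algebraMap (𝓞 K) K π) ((map_ne_zero_iff _
      (FaithfulSMul.algebraMap_injective (𝓞 K) K)).mpr hπ0))
    rw [Units.val_mk0] at e
    rw [e, WithZero.exp_le_exp] at h1 h2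
    push_cast at h1 h2
    omega
  · rw [ordv_eq_zero_iff, Units.val_mk0, w.valuation_eq_one_iff_notMem,
      ← Ideal.span_singleton_le_iff_mem, ← hπ, ← Ideal.dvd_iff_le]
    intro hmem
    rcases (Ideal.prime_of_isPrime w.ne_bot w.isPrime).dvd_or_dvd hmem with h | h
    · refine hwv (HeightOneSpectrum.ext ?_)
      exact (v.isMaximal.eq_of_le w.isPrime.ne_top (Ideal.le_of_dvd h)).symm
    · exact hvJ w _ hw h

end FLTAgent.PT
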