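import Fermat.Agent.PT.ToolAPI
import Fermat.Agent.PT.Local.Norm
import Fermat.Agent.PT.Local.Duality
import Fermat.Agent.PT.Local.Unr

/-!
Parcels A and C (local fields, local duality): the interface. The proofs are in `PT/Local/*.lean`;
keep names and statements stable.
-/

set_option autoImplicit false

noncomputable section

open CategoryTheory groupCohomology

namespace FLTAgent.PT

variable {p : ℕ} [Fact p.Prime] (q : Nat.Primes) {M N : Rep.{0} (ZMod p) GQ}

/-- the number of `Gam q`-orbits on the cosets -/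
def orbitCount (H : Subgroup GQ) : ℕ :=
  Nat.card (Quotient (MulAction.orbitRel (loc q).range (GQ ⧸ H)))

/-- the map of `Gam q` is injective -/
theorem loc_injective : Function.Injective (loc q) := loc_injective' q

/-- and its image is the whole decomposition group -/
theorem range_loc :
    (loc q).range = (ExtCitation.primeLocalPlace q).decompositionSubgroup ℚ := range_loc' q

theorem finite_lH1 (hM : IsAdm (MonoidHom.id GQ) M) : Module.Finite (ZMod p) (lH1 q M) :=
  (Loc.nondeg_all hM).1.fin1

theorem finite_lH2 (hM : IsAdm (MonoidHom.id GQ) M) : Module.Finite (ZMod p) (lH2 q M) :=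
  (Loc.nondeg_all hM).1.fin2

theorem finrank_lH2_mu : Module.finrank (ZMod p) (lH2 q (mu p)) = 1 :=
  Loc.finrank_lH2_mu' p q

/-- `Br(K)[p]` is a line for every finite extension `K` of `ℚ_q` -/
theorem finrank_cH2_mu_open (U : Subgroup (Gam q)) (hU : IsOpenSub (loc q) U) :
    Module.finrank (ZMod p)
      (cH2 ((loc q).comp U.subtype) (Rep.res ((loc q).comp U.subtype) (mu p))) = 1 :=
  Loc.finrank_cH2_mu_open' hU

/-- corestriction is surjective -/
theorem indSum_surjective {H : Subgroup GQ} (hH : IsOpenSub (MonoidHom.id GQ) H)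
    [Finite (GQ ⧸ H)]
    (heqv : ∀ g a, (indSum H (mu p)) ((Rep.res (loc q) (ind H (mu p))).ρ g a) =
      (Rep.res (loc q) (mu p)).ρ g (indSum H (mu p) a)) :
    Function.Surjective (h2push (loc q) (A := Rep.res (loc q) (ind H (mu p)))
      (B := Rep.res (loc q) (mu p)) (indSum H (mu p)) heqv) :=
  Loc.indSum_surjective' q hH heqv

/-- the dimension of `K*/p` -/
theorem finrank_lH1_perm {H : Subgroup GQ} (hH : IsOpenSub (MonoidHom.id GQ) H)
    (hω : ∀ h ∈ H, ExtCitation.cycloChar p h = 1) :
    Module.finrank (ZMod p) (lH1 q (ind H (one p))) =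
      2 * orbitCount q H + if (q : ℕ) = p then H.index else 0 :=
  Loc.finrank_lH1_perm' hH hω

/-- the classes of `μ_p` at `p` (that is `ℚ_p*/p`) have dimension at most `2` -/
theorem finrank_lH1_mu (hq : (q : ℕ) = p) (hp2 : p ≠ 2) :
    Module.finrank (ZMod p) (lH1 q (mu p)) ≤ 2 :=
  (Loc.finrank_lH1_mu' hq hp2).le

/-- local duality in degree 1 -/
theorem pair11_bijective (hM : IsAdm (MonoidHom.id GQ) M) :
    Function.Bijective (pair11 q hM) ∧ Function.Bijective (pair11 q hM).flip :=
  Loc.pair11_bijective' hM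

/-- local duality in degrees 0, 2 -/
theorem pair02_bijective (hM : IsAdm (MonoidHom.id GQ) M) :
    Function.Bijective (pair02 q M) ∧ Function.Bijective (pair02 q M).flip :=
  Loc.pair02_bijective' hM

/-- `H²` is right exact -/
theorem lH2_surjective (hM : IsAdm (MonoidHom.id GQ) M) (hN : IsAdm (MonoidHom.id GQ) N)
    (φ : M →ₗ[ZMod p] N) (hφ : ∀ g m, φ (M.ρ g m) = N.ρ g (φ m)) (hs : Function.Surjective φ) :
    Function.Surjective (h2push (loc q) (A := Rep.res (loc q) M) (B := Rep.res (loc q) N) φ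
      fun g m => hφ (loc q g) m) :=
  Loc.lH2_surjective' hM hN φ hφ hs

/-- the unramified classes have the dimension of the invariants -/
theorem finrank_unr1 (hM : IsAdm (MonoidHom.id GQ) M) :
    Module.finrank (ZMod p) (unr1 q M) = Module.finrank (ZMod p) (lH0 q M) :=
  Loc.finrank_unr1' hM

/-- the Euler characteristic away from `p` -/
theorem euler_away (hq : (q : ℕ) ≠ p) (hM : IsAdm (MonoidHom.id GQ) M) :
    Module.finrank (ZMod p) (lH1 q M) =
      Module.finrank (ZMod p) (lH0 q M) + Module.finrank (ZMod p) (lH2 q M) :=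
  Loc.euler_away' hq hM

/-- the unramified classes are exact annihilators of each other -/
theorem unr1_orthogonal (hq : (q : ℕ) ≠ p) (hM : IsAdm (MonoidHom.id GQ) M) (hu : IsUnrAt q M)
    (x : lH1 q M) :
    x ∈ unr1 q M ↔ ∀ y ∈ unr1 q (dual' M), pair11 q hM x y = 0 :=
  (Loc.unr1_orth' hq hM).1 x

theorem unr1_orthogonal' (hq : (q : ℕ) ≠ p) (hM : IsAdm (MonoidHom.id GQ) M) (hu : IsUnrAt q M)
    (y : lH1 q (dual' M)) :
    y ∈ unr1 q (dual' M) ↔ ∀ x ∈ unr1 q M, pair11 q hM x y = 0 :=
  (Loc.unr1_orth' hq hM).2 y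

end FLTAgent.PT
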