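import Fermat.Agent.PT.Defs

/-!
Connecting maps of a short exact sequence of finite smooth modules, in degrees `0` and `1`.
-/

set_option autoImplicit false

noncomputable section

open CategoryTheory groupCohomology

namespace FLTAgent.PT

variable {p : ℕ} [Fact p.Prime] {G : Type} [Group G] (r : G →* GQ)

/-- a short exact sequence of finite smooth modules -/
structure SES (A B C : Rep.{0} (ZMod p) G) where
  i : A →ₗ[ZMod p] B
  pr : B →ₗ[ZMod p] C
  i_eqv : ∀ g a, i (A.ρ g a) = B.ρ g (i a)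
  pr_eqv : ∀ g b, pr (B.ρ g b) = C.ρ g (pr b)
  inj : Function.Injective i
  surj : Function.Surjective pr
  exact : Function.Exact i pr
  adm : IsAdm r B

namespace SES

variable {r} {A B C : Rep.{0} (ZMod p) G} (E : SES r A B C)

/-- a set-theoretic section -/
def sec : C → B := Function.surjInv E.surj

theorem pr_sec (c : C) : E.pr (E.sec c) = c := Function.surjInv_eq E.surj c

/-- the inverse of `i` on its image -/
def back : B → A := Function.invFun E.i

theorem i_back {b : B} (hb : E.pr b = 0) : E.i (E.back b) = b :=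
  Function.invFun_eq ((E.exact b).1 hb)

/-- restriction of the middle term to a group mapping into `G` -/
def res {G' : Type} [Group G'] (r' : G' →* GQ) (f : G' →* G) (hf : ∀ g, r (f g) = r' g) :
    SES r' (Rep.res f A) (Rep.res f B) (Rep.res f C) where
  i := E.i
  pr := E.pr
  i_eqv g a := E.i_eqv (f g) a
  pr_eqv g b := E.pr_eqv (f g) b
  inj := E.inj
  surj := E.surj
  exact := E.exact
  adm := by
    obtain ⟨F, hF, h⟩ := E.adm.level
    exact ⟨E.adm.finite, F, hF, fun g hg => h (f g) (by rwa [hf])⟩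

include E in
theorem level_d0 (b : B) : IsLevelConstant₁ r ((d₀₁ B).hom b) := by
  obtain ⟨F, hF, -, hρ, -⟩ := E.adm.exists_level r (isLevelConstant₁_const r b)
  refine ⟨F, hF, fun g s hs => ?_⟩
  rw [d₀₁_hom_apply, d₀₁_hom_apply, map_mul, hρ s hs, mul_one]

include E in
theorem level_d1 {f : G → B} (hf : IsLevelConstant₁ r f) :
    IsLevelConstant₂ r ((d₁₂ B).hom f) := by
  obtain ⟨F, hF, hn, hρ, hf'⟩ := E.adm.exists_level r hf
  refine ⟨F, hF, fun g g' s s' hs hs' => ?_⟩
  have hconj : r ((g'⁻¹ * s * g') * s') ∈ F.fixingSubgroup := by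
    simp only [map_mul, map_inv]
    refine mul_mem ?_ hs'
    simpa using hn.conj_mem (r s) hs (r g')⁻¹
  simp only [d₁₂_hom_apply]
  rw [map_mul B.ρ, hρ s hs, mul_one, hf' g s hs, hf' g' s' hs',
    show g * s * (g' * s') = g * g' * ((g'⁻¹ * s * g') * s') by group, hf' _ _ hconj]

theorem back_cocycle₁ (x : cH0 C) :
    E.back ∘ (d₀₁ B).hom (E.sec x.1) ∈ Z1 r A := by
  have key : ∀ g, E.i (E.back ((d₀₁ B).hom (E.sec x.1) g)) = (d₀₁ B).hom (E.sec x.1) g :=
    fun g => E.i_back (by rw [d₀₁_hom_apply, map_sub, E.pr_eqv, E.pr_sec, x.2 g, sub_self])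
  refine ⟨(mem_cocycles₁_def _).2 fun g h => E.inj ?_, (E.level_d0 _).comp E.back⟩
  simp only [Function.comp_apply, map_add, map_sub, E.i_eqv, key, map_zero]
  simp only [d₀₁_hom_apply, map_sub, map_mul, Module.End.mul_apply]
  abel

theorem back_cocycle₂ {f : G → B} (hf : IsLevelConstant₁ r f)
    (hc : E.pr ∘ f ∈ cocycles₁ C) : E.back ∘ (d₁₂ B).hom f ∈ levelCocycles₂ r A := by
  have key : ∀ g, E.i (E.back ((d₁₂ B).hom f g)) = (d₁₂ B).hom f g := fun g => E.i_back (by
    rw [d₁₂_hom_apply, map_add, map_sub, E.pr_eqv]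
    exact (mem_cocycles₁_def _).1 hc g.1 g.2)
  refine ⟨(mem_cocycles₂_def _).2 fun g h j => E.inj ?_, (E.level_d1 hf).comp E.back⟩
  simp only [Function.comp_apply, map_add, map_sub, E.i_eqv, key, map_zero]
  simp only [d₁₂_hom_apply, map_add, map_sub, map_mul, Module.End.mul_apply, mul_assoc]
  abel

/-- two lifts give the same class in degree 1 -/
theorem eq_of_lift₀ {b b' : B} (hbb : E.pr b = E.pr b') {a a' : Z1 r A}
    (ha : ∀ g, E.i (a.1 g) = B.ρ g b - b) (ha' : ∀ g, E.i (a'.1 g) = B.ρ g b' - b') :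
    h1mk r A a = h1mk r A a' := by
  rw [← sub_eq_zero, ← map_sub, h1mk_eq_zero_iff]
  obtain ⟨m, hm⟩ := (E.exact (b - b')).1 (by rw [map_sub, hbb, sub_self])
  refine ⟨m, fun g => E.inj ?_⟩
  show E.i (A.ρ g m - m) = E.i ((a - a').1 g)
  rw [map_sub, E.i_eqv, hm, Submodule.coe_sub, Pi.sub_apply, map_sub E.i, ha, ha', map_sub]
  abel

/-- two lifts give the same class in degree 2 -/
theorem eq_of_lift₁ {f f' : G → B} (hf : IsLevelConstant₁ r f) (hf' : IsLevelConstant₁ r f')
    (hff : ∃ n : C, ∀ g, E.pr (f g) - E.pr (f' g) = C.ρ g n - n)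
    {a a' : levelCocycles₂ r A}
    (ha : ∀ g, E.i (a.1 g) = (d₁₂ B).hom f g) (ha' : ∀ g, E.i (a'.1 g) = (d₁₂ B).hom f' g) :
    h2mk r A a = h2mk r A a' := by
  obtain ⟨n, hn⟩ := hff
  set b := E.sec n with hb
  set e : G → B := fun g => f g - f' g - (B.ρ g b - b) with he
  have hlev : IsLevelConstant₁ r e := by
    have h0 : e = f + (fun g => -f' g) + fun g => -((d₀₁ B).hom b g) := by
      funext g
      simp [he, d₀₁_hom_apply, sub_eq_add_neg, add_assoc]
    rw [h0]
    exact (hf.add (hf'.comp fun x => -x)).add ((E.level_d0 b).comp fun x => -x)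
  have hi : ∀ g, E.i (E.back (e g)) = e g := fun g => E.i_back (by
    simp only [he, map_sub, E.pr_eqv, hb, E.pr_sec, hn, sub_self])
  rw [← sub_eq_zero, ← map_sub]
  refine (continuousH2π_eq_zero_iff r A _).2
    ((mem_levelCoboundaries₂_iff r A _).2 ⟨E.back ∘ e, hlev.comp E.back, funext fun g => E.inj ?_⟩)
  rw [Submodule.coe_sub, Pi.sub_apply, map_sub, ha, ha']
  simp only [d₁₂_hom_apply, Function.comp_apply, map_add, map_sub, E.i_eqv, hi]
  simp only [he, map_sub, map_mul, Module.End.mul_apply]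
  abel

/-- the connecting cochain in degree 0 -/
def del0Z (x : cH0 C) : Z1 r A := ⟨_, E.back_cocycle₁ x⟩

theorem i_del0Z (x : cH0 C) (g : G) :
    E.i ((E.del0Z x).1 g) = B.ρ g (E.sec x.1) - E.sec x.1 :=
  E.i_back (by rw [d₀₁_hom_apply, map_sub, E.pr_eqv, E.pr_sec, x.2 g, sub_self])

/-- the connecting map `H⁰(C) → H¹(A)` -/
def del0 : cH0 C →ₗ[ZMod p] cH1 r A where
  toFun x := h1mk r A (E.del0Z x)
  map_add' x y := by
    rw [← map_add]
    refine E.eq_of_lift₀ (b' := E.sec x.1 + E.sec y.1) ?_ (E.i_del0Z _) fun g => ?_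
    · simp [map_add, E.pr_sec]
    · simp only [Submodule.coe_add, Pi.add_apply, map_add, E.i_del0Z]
      abel
  map_smul' c x := by
    rw [RingHom.id_apply, ← map_smul]
    refine E.eq_of_lift₀ (b' := c • E.sec x.1) ?_ (E.i_del0Z _) fun g => ?_
    · simp [map_smul, E.pr_sec]
    · simp only [SetLike.val_smul, Pi.smul_apply, map_smul, E.i_del0Z, smul_sub]

theorem del0_eq {x : cH0 C} {b : B} (hb : E.pr b = x.1) {a : Z1 r A}
    (ha : ∀ g, E.i (a.1 g) = B.ρ g b - b) : E.del0 x = h1mk r A a :=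
  E.eq_of_lift₀ (by rw [E.pr_sec, hb]) (E.i_del0Z x) ha

/-- the connecting cochain in degree 1 -/
def del1Z (z : Z1 r C) : levelCocycles₂ r A :=
  ⟨_, E.back_cocycle₂ (f := E.sec ∘ z.1) (IsLevelConstant₁.comp z.2.2 _)
    (by
      have h : E.pr ∘ (E.sec ∘ z.1) = z.1 := funext fun g => E.pr_sec _
      rw [h]; exact z.2.1)⟩

theorem i_del1Z (z : Z1 r C) (g : G × G) :
    E.i ((E.del1Z z).1 g) = (d₁₂ B).hom (E.sec ∘ z.1) g :=
  E.i_back (by
    rw [d₁₂_hom_apply, map_add, map_sub, E.pr_eqv]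
    simpa only [Function.comp_apply, E.pr_sec] using (mem_cocycles₁_def _).1 z.2.1 g.1 g.2)

/-- the connecting map on cocycles -/
def del1L : Z1 r C →ₗ[ZMod p] cH2 r A where
  toFun z := h2mk r A (E.del1Z z)
  map_add' x y := by
    rw [← map_add]
    refine E.eq_of_lift₁ (f' := E.sec ∘ x.1 + E.sec ∘ y.1) (IsLevelConstant₁.comp (x + y).2.2 _)
      ((IsLevelConstant₁.comp x.2.2 _).add (IsLevelConstant₁.comp y.2.2 _))
      ⟨0, fun g => by simp [map_add, E.pr_sec]⟩ (E.i_del1Z _) fun g => ?_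
    simp only [Submodule.coe_add, Pi.add_apply, map_add, E.i_del1Z]
  map_smul' c x := by
    rw [RingHom.id_apply, ← map_smul]
    refine E.eq_of_lift₁ (f' := c • (E.sec ∘ x.1)) (IsLevelConstant₁.comp (c • x).2.2 _)
      ((IsLevelConstant₁.comp x.2.2 E.sec).comp (fun b : B => c • b) :)
      ⟨0, fun g => by simp [map_smul, E.pr_sec]⟩ (E.i_del1Z _) fun g => ?_
    simp only [SetLike.val_smul, Pi.smul_apply, map_smul, E.i_del1Z]

/-- the connecting map `H¹(C) → H²(A)` -/
def del1 : cH1 r C →ₗ[ZMod p] cH2 r A :=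
  Submodule.liftQ _ E.del1L fun z hz => by
    obtain ⟨n, hn⟩ := mem_B1_iff.1 hz
    rw [LinearMap.mem_ker]
    have := E.eq_of_lift₁ (f := E.sec ∘ z.1) (f' := 0) (IsLevelConstant₁.comp z.2.2 _)
      (isLevelConstant₁_const r 0)
      ⟨n, fun g => by
        simp only [Function.comp_apply, E.pr_sec, Pi.zero_apply, map_zero, sub_zero]
        exact (hn g).symm⟩
      (a' := 0) (E.i_del1Z z) (fun g => by simp)
    exact this.trans (map_zero _)

theorem del1_eq {z : Z1 r C} {f : G → B} (hf : IsLevelConstant₁ r f)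
    (hz : ∀ g, E.pr (f g) = z.1 g) {a : levelCocycles₂ r A}
    (ha : ∀ g, E.i (a.1 g) = (d₁₂ B).hom f g) : E.del1 (h1mk r C z) = h2mk r A a :=
  E.eq_of_lift₁ (IsLevelConstant₁.comp z.2.2 _) hf
    ⟨0, fun g => by simp [E.pr_sec, hz]⟩ (E.i_del1Z z) ha

end SES

end FLTAgent.PT
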