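import Fermat.Agent.PT.Dual.Main

/-!
Parcel E (Poitou–Tate), owner helper8: the interface used by parcels F and G.
-/

set_option autoImplicit false
set_option linter.style.haveILetI false

noncomputable section

open CategoryTheory groupCohomology

namespace FLTAgent.PT

variable {p : ℕ} [Fact p.Prime] {M N : Rep.{0} (ZMod p) GQ}

theorem exists_dual_of_notMem_range {V W : Type} [AddCommGroup V] [Module (ZMod p) V] [AddCommGroup W]
    [Module (ZMod p) W] (ρ : V →ₗ[ZMod p] W) {b : W} (hb : b ∉ LinearMap.range ρ) :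
    ∃ L : W →ₗ[ZMod p] ZMod p, L b ≠ 0 ∧ ∀ v, L (ρ v) = 0 := by
  obtain ⟨L, hLb, hL⟩ := Submodule.exists_dual_map_eq_bot_of_notMem hb inferInstance
  exact ⟨L, hLb, fun v => LinearMap.le_ker_iff_map.2 hL ⟨v, rfl⟩⟩

/-- a family outside the image is detected by a family of local functionals -/
theorem exists_detect_family {ι V : Type} [AddCommGroup V] [Module (ZMod p) V] {X : ι → Type}
    [∀ i, AddCommGroup (X i)] [∀ i, Module (ZMod p) (X i)] (ρ : ∀ i, V →ₗ[ZMod p] X i)
    (hρ : ∀ v, {i | ρ i v ≠ 0}.Finite) (b : ∀ i, X i) (hb : {i | b i ≠ 0}.Finite)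
    (hne : ¬∃ v, ∀ i, ρ i v = b i) :
    ∃ l : ∀ i, X i →ₗ[ZMod p] ZMod p,
      ∑ᶠ i, l i (b i) ≠ 0 ∧ ∀ v, ∑ᶠ i, l i (ρ i v) = 0 := by
  classical
  obtain ⟨L, hLb, hL⟩ := exists_dual_of_notMem_range (LinearMap.pi ρ)
    (b := b) fun ⟨v, hv⟩ => hne ⟨v, fun i => congrFun hv i⟩
  have hsum : ∀ v : ∀ i, X i, {i | v i ≠ 0}.Finite → ∑ᶠ i, L (Pi.single i (v i)) = L v := by
    intro v hv
    rw [finsum_eq_sum_of_support_subset _ (s := hv.toFinset) fun i hi => by
      rw [Set.Finite.coe_toFinset]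
      intro h0
      exact hi (show L (Pi.single i (v i)) = 0 by rw [h0, Pi.single_zero, map_zero]), ← map_sum]
    congr 1
    funext r
    rw [Finset.sum_apply, Finset.sum_eq_single r (fun q _ hq => Pi.single_eq_of_ne hq.symm _)
      (fun hr => by
        rw [Pi.single_eq_same]
        by_contra h0
        exact hr (hv.mem_toFinset.2 h0)), Pi.single_eq_same]
  exact ⟨fun i => L ∘ₗ LinearMap.single (ZMod p) X i, fun h => hLb ((hsum b hb).symm.trans h),
    fun v => (hsum (fun i => ρ i v) (hρ v)).trans (hL v)⟩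

theorem finite_H1T (hp2 : p ≠ 2) (hM : IsAdm (MonoidHom.id GQ) M) (T : Finset Nat.Primes) :
    Module.Finite (ZMod p) (H1T T M) := finite_H1T' hp2 hM T

theorem finrank_sha1g_eq_sha2g (hp2 : p ≠ 2) (hM : IsAdm (MonoidHom.id GQ) M) :
    Module.Finite (ZMod p) (sha2g (dual' M)) ∧
      Module.finrank (ZMod p) (sha1g M) = Module.finrank (ZMod p) (sha2g (dual' M)) := by
  obtain ⟨R⟩ := exists_recip hp2
  obtain ⟨e⟩ := sha1_duality R hp2 hM
  haveI := finite_of_le (sha1g_le_H1T (M := M) ∅) (finite_H1T hp2 hM ∅)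
  haveI : Module.Finite (ZMod p) (Module.Dual (ZMod p) (sha2g (dual' M))) := Module.Finite.equiv e
  haveI : Module.Finite (ZMod p) (sha2g (dual' M)) := (Module.finite_dual_iff (ZMod p)).1 inferInstance
  exact ⟨inferInstance, e.finrank_eq.trans Subspace.dual_finrank_eq⟩

/-- `H²` is right exact -/
theorem cH2_surjective (hp2 : p ≠ 2) (hM : IsAdm (MonoidHom.id GQ) M)
    (hN : IsAdm (MonoidHom.id GQ) N) (φ : M →ₗ[ZMod p] N)
    (hφ : ∀ g m, φ (M.ρ g m) = N.ρ g (φ m)) (hs : Function.Surjective φ) :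
    Function.Surjective (h2push (MonoidHom.id GQ) φ hφ) := cH2_surjective' hp2 hN M hM φ hφ hs

/-- the image of localisation in degree 2 -/
theorem exists_cH2_iff (hp2 : p ≠ 2) (R : Recip p) (hM : IsAdm (MonoidHom.id GQ) M)
    (b : ∀ q, lH2 q M) (hb : {q | b q ≠ 0}.Finite) :
    (∃ c : cH2 (MonoidHom.id GQ) M, ∀ q, res2 q M c = b q) ↔
      ∀ n : cH0 (dual' M),
        ∑ᶠ q, R.inv q (pair02 q M ⟨n.1, fun g => n.2 (loc q g)⟩ (b q)) = 0 := by
  classical
  constructor
  · rintro ⟨c, hc⟩ n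
    rw [← R.sum_zero (cupH02 (MonoidHom.id GQ) (evD M) (evD_eqv M) n c)]
    refine finsum_congr fun q => congrArg (R.inv q) ?_
    rw [← hc q]
    obtain ⟨z, rfl⟩ := Submodule.mkQ_surjective _ c
    rfl
  intro h
  by_contra hne
  obtain ⟨l, hlb, hl⟩ := exists_detect_family (X := fun q => lH2 q M) (fun q => res2 q M)
    (finite_res2 hM) b hb hne
  choose n hn using fun q => ((pair02_bijective q hM).1.2 ((R.inv q).symm.toLinearMap ∘ₗ l q))
  have hnl : ∀ q v, R.inv q (pair02 q M (n q) v) = l q v := fun q v => by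
    rw [hn q]
    exact (R.inv q).apply_symm_apply _
  have hM' := isAdm_dual hM
  have hker : Phi1 R hp2 hM' (zeroK1 n) = 0 := LinearMap.ext fun c'' => by
    let e : M ≃ₗ[ZMod p] dual' (dual' M) := LinearEquiv.ofBijective (ddual M) (ddual_bijective hM)
    have he : ∀ g m, e (M.ρ g m) = (dual' (dual' M)).ρ g (e m) := fun g m => ddual_eqv g m
    obtain ⟨c, rfl⟩ : ∃ c, h2push (MonoidHom.id GQ) e.toLinearMap he c = c'' :=
      ⟨_, h2push_retract e.symm.toLinearMap e.toLinearMap (eqv_symm e he) he e.apply_symm_apply c''⟩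
    rw [Phi1_zeroK1, LinearMap.zero_apply]
    refine (finsum_congr fun q => ?_).trans (hl c)
    rw [← hnl]
    obtain ⟨z, rfl⟩ := Submodule.mkQ_surjective _ c
    rfl
  obtain ⟨m, hm0, hm⟩ := Phi1_ker R hp2 hM' (zeroK1 n) hker
  refine hlb ?_
  rw [← h ⟨m, fun g => sub_eq_zero.1 (hm0 g).symm⟩]
  exact finsum_congr fun q => (hnl q (b q)).symm.trans
    (congrArg (fun v => R.inv q (pair02 q M v (b q))) (Subtype.ext (hm q)))

/-- isotropy: the sum of the local pairings of two global classes vanishes -/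
theorem sum_pair11_eq_zero (R : Recip p) (hM : IsAdm (MonoidHom.id GQ) M) (T : Finset Nat.Primes)
    (hT : IsUnrOutside T M) (hpT : ∀ q : Nat.Primes, (q : ℕ) = p → q ∈ T)
    (x : H1T T M) (y : H1T T (dual' M)) :
    ∑ q ∈ T, R.inv q (pair11 q hM (res1 q M x.1) (res1 q (dual' M) y.1)) = 0 := by
  rw [← isOrth_res R hM x.1 y.1]
  refine (finsum_eq_sum_of_support_subset _ fun q hq => ?_).symm
  by_contra hqT
  exact hq (ev11_unr R (fun h => hqT (hpT q h)) hM (hT q hqT) (mem_H1T_iff.1 x.2 q hqT)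
    (mem_H1T_iff.1 y.2 q hqT))

/-- a local family orthogonal to the classes of the dual is global -/
theorem exists_global_of_orthogonal (hp2 : p ≠ 2) (R : Recip p) (hM : IsAdm (MonoidHom.id GQ) M)
    (T : Finset Nat.Primes) (hT : IsUnrOutside T M)
    (hpT : ∀ q : Nat.Primes, (q : ℕ) = p → q ∈ T) (z : ∀ q, lH1 q M)
    (horth : ∀ y : H1T T (dual' M),
      ∑ q ∈ T, R.inv q (pair11 q hM (z q) (res1 q (dual' M) y.1)) = 0) :
    ∃ x : H1T T M, ∀ q ∈ T, res1 q M x.1 = z q := by
  classical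
  let N : ∀ q, Submodule (ZMod p) (lH1 q (dual' M)) := fun q =>
    if q ∈ T then ⊤ else unr1 q (dual' M)
  obtain ⟨w, hwN, hw⟩ := exists_correction (fun q => ev11 R q hM) (fun q => ev11_surjective R q hM)
    N (finite_ram1_outside (isAdm_dual hM) T N fun q hq => if_neg hq) (famFun R hM T z) fun b hb => by
      rw [famFun_apply, neg_eq_zero]
      exact horth ⟨b, mem_H1T_iff.2 fun q hq => by
        have := hb q
        simpa only [N, if_neg hq] using this⟩
  have hwT : ∀ q ∈ T, w q = 0 := fun q hq => ev11_injective R q hM (LinearMap.ext fun n => by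
    rw [map_zero, LinearMap.zero_apply]
    exact hwN q n (by simp only [N, if_pos hq]; exact Submodule.mem_top))
  have hwu : ∀ q ∉ T, w q ∈ unr1 q M := fun q hq =>
    mem_unr1_of_ev11 R (fun h => hq (hpT q h)) hM (hT q hq) fun n hn =>
      hwN q n (by simp only [N, if_neg hq]; exact hn)
  obtain ⟨x, hx⟩ := exists_global_of_correction R hp2 hM T T z w hwu hw
  refine ⟨⟨x, mem_H1T_iff.2 fun q hq => ?_⟩, fun q hq => ?_⟩
  · rw [hx q, if_neg hq, zero_add]
    exact hwu q hq
  · rw [hx q, if_pos hq, hwT q hq, add_zero]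

/-- approximation outside a set `T` detecting everything but the locally trivial classes -/
theorem exists_global_with_ramification (hp2 : p ≠ 2) (hM : IsAdm (MonoidHom.id GQ) M)
    (T : Finset Nat.Primes) (hT : IsUnrOutside T M)
    (hpT : ∀ q : Nat.Primes, (q : ℕ) = p → q ∈ T)
    (hbig : ∀ y : cH1 (MonoidHom.id GQ) (dual' M), y ∈ H1T T (dual' M) →
      (∀ q ∈ T, res1 q (dual' M) y = 0) → y ∈ sha1g (dual' M))
    (U : Finset Nat.Primes) (hU : Disjoint T U) (z : ∀ q, lH1 q M) :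
    ∃ x : cH1 (MonoidHom.id GQ) M, x ∈ H1T (T ∪ U) M ∧
      ∀ q ∈ U, res1 q M x - z q ∈ unr1 q M := by
  classical
  obtain ⟨R⟩ := exists_recip hp2
  let N : ∀ q, Submodule (ZMod p) (lH1 q (dual' M)) := fun q =>
    if q ∈ T then ⊥ else unr1 q (dual' M)
  obtain ⟨w, hwN, hw⟩ := exists_correction (fun q => ev11 R q hM) (fun q => ev11_surjective R q hM)
    N (finite_ram1_outside (isAdm_dual hM) T N fun q hq => if_neg hq) (famFun R hM U z) fun b hb => by
      have hloc : b ∈ sha1g (dual' M) := hbig b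
        (mem_H1T_iff.2 fun q hq => by
          have := hb q
          simpa only [N, if_neg hq] using this)
        fun q hq => by
          have := hb q
          simpa only [N, if_pos hq, Submodule.mem_bot] using this
      rw [famFun_apply, neg_eq_zero]
      exact Finset.sum_eq_zero fun q _ => by rw [mem_sha1g_iff.1 hloc q, map_zero]
  have hwu : ∀ q ∉ T, w q ∈ unr1 q M := fun q hq =>
    mem_unr1_of_ev11 R (fun h => hq (hpT q h)) hM (hT q hq) fun n hn =>
      hwN q n (by simp only [N, if_neg hq]; exact hn)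
  obtain ⟨x, hx⟩ := exists_global_of_correction R hp2 hM T U z w hwu hw
  refine ⟨x, mem_H1T_iff.2 fun q hq => ?_, fun q hq => ?_⟩
  · rw [hx q, if_neg fun h => hq (Finset.mem_union_right _ h), zero_add]
    exact hwu q fun h => hq (Finset.mem_union_left _ h)
  · rw [hx q, if_pos hq, add_sub_cancel_left]
    exact hwu q fun h => Finset.disjoint_left.1 hU h hq

/-- for large `T`, only the locally trivial classes vanish on `T` -/
theorem exists_big_set (hp2 : p ≠ 2) (hM : IsAdm (MonoidHom.id GQ) M) :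
    ∃ T₀ : Finset Nat.Primes, IsUnrOutside T₀ M ∧ (∀ q : Nat.Primes, (q : ℕ) = p → q ∈ T₀) ∧
      ∀ T : Finset Nat.Primes, T₀ ⊆ T → ∀ x : cH1 (MonoidHom.id GQ) M, x ∈ H1T T M →
        (∀ q ∈ T, res1 q M x = 0) → x ∈ sha1g M := by
  classical
  haveI := finite_H1T hp2 hM ∅
  obtain ⟨T₁, hT₁⟩ := exists_detect (M := M) ∅
  refine ⟨(finite_not_unr hM).toFinset ∪ (finite_above_p (p := p)).toFinset ∪ T₁, fun q hq => ?_,
    fun q hq => Finset.mem_union_left _ (Finset.mem_union_right _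
      ((Set.Finite.mem_toFinset _).2 hq)), fun T hT x hx h => hT₁ x (mem_H1T_iff.2 fun q _ => ?_)
      fun q hq => h q (hT (Finset.mem_union_right _ hq))⟩
  · simp only [Finset.mem_union, Set.Finite.mem_toFinset, Set.mem_ofPred_eq, not_or, not_not] at hq
    exact hq.1.1
  · by_cases hq : q ∈ T
    · rw [h q hq]; exact zero_mem _
    · exact mem_H1T_iff.1 hx q hq

end FLTAgent.PT
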