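import Fermat.Agent.PT.Euler.Main

/-!
Parcel F (Euler characteristic, Greenberg–Wiles): the interface.
-/

set_option autoImplicit false

noncomputable section

open CategoryTheory groupCohomology

namespace FLTAgent.PT

variable {p : ℕ} [Fact p.Prime]

/-- the global Euler characteristic: for large `T` the defect `eulerE` vanishes -/
theorem euler_char (hp2 : p ≠ 2) (M : Rep.{0} (ZMod p) GQ) (hM : IsAdm (MonoidHom.id GQ) M) :
    ∃ T₀ : Finset Nat.Primes, ∀ T, T₀ ⊆ T → eulerE T M = 0 :=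
  eulerG_eq_zero_iff.mp (eulerG_eq_zero hp2 hM)

/-- Greenberg–Wiles -/
theorem greenberg_wiles (hp2 : p ≠ 2) {M : Rep.{0} (ZMod p) GQ}
    (hM : IsAdm (MonoidHom.id GQ) M) (T : Finset Nat.Primes) (hT : IsUnrOutside T M)
    (hpT : ∀ q : Nat.Primes, (q : ℕ) = p → q ∈ T) (L : ∀ q, Submodule (ZMod p) (lH1 q M)) :
    Module.finrank (ZMod p) (Sel T L) + Module.finrank (ZMod p) (cH0 (dual' M)) +
        ∑ q ∈ T, Module.finrank (ZMod p) (lH0 q M) + Module.finrank (ZMod p) (h0inf M) =
      Module.finrank (ZMod p) (Sel T (Lperp hM L)) + Module.finrank (ZMod p) (cH0 M) +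
        ∑ q ∈ T, Module.finrank (ZMod p) (L q) :=
  gw_of_euler hp2 (fun M hM => euler_char hp2 M hM) hM T hT hpT L

end FLTAgent.PT
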