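import Fermat.Agent.PT.G3Span

/-!
Area PT, parcel G: vanishing of the first cohomology of the twisted adjoint module at the level of
the splitting field, through the trace `t g = tr (c g * ρ g)`.
-/

set_option autoImplicit false

namespace FLTAgent.PT

open Matrix

variable {k : Type*} [Field k] {Γ : Type*} [Group Γ]

/-- A traceless cocycle of the adjoint module twisted by `χ`, zero on `K ∩ ker ρ`. -/
structure AdCocycle (ρ : Γ →* Matrix (Fin 2) (Fin 2) k) (χ : Γ →* kˣ) (K : Subgroup Γ)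
    (c : Γ → Matrix (Fin 2) (Fin 2) k) : Prop where
  trace : ∀ g, (c g).trace = 0
  mul : ∀ g h, c (g * h) = c g + (χ g : k) • (ρ g * c h * ρ g⁻¹)
  kill : ∀ g ∈ K, ρ g = 1 → c g = 0

variable {ρ : Γ →* Matrix (Fin 2) (Fin 2) k} {χ : Γ →* kˣ} {K : Subgroup Γ}
  {c : Γ → Matrix (Fin 2) (Fin 2) k}

namespace AdCocycle

variable (hc : AdCocycle ρ χ K c) (hχ : ∀ g ∈ K, χ g = 1)
include hc

theorem map_one : c 1 = 0 := by
  have := hc.mul 1 1
  simpa using this

theorem map_inv (g : Γ) : (χ g : k) • (ρ g * c g⁻¹ * ρ g⁻¹) = -c g :=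
  eq_neg_of_add_eq_zero_right (by rw [← hc.mul, mul_inv_cancel, hc.map_one])

include hχ in
theorem mul_of_mem {g : Γ} (hg : g ∈ K) (h : Γ) : c (g * h) = c g + ρ g * c h * ρ g⁻¹ := by
  rw [hc.mul, hχ g hg, Units.val_one, one_smul]

include hχ in
theorem inv_of_mem {g : Γ} (hg : g ∈ K) : c g⁻¹ = -(ρ g⁻¹ * c g * ρ g) := by
  have := hc.mul_of_mem hχ (inv_mem hg) g
  rw [inv_mul_cancel, hc.map_one, inv_inv] at this
  exact eq_neg_of_add_eq_zero_left this.symm

include hχ in
/-- the trace function is multiplicative in the sense of the trace identity of `SL₂` -/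
theorem trace_identity (hdet : ∀ g ∈ K, (ρ g).det = 1) {g h : Γ} (hg : g ∈ K) (hh : h ∈ K) :
    (c (g * h) * ρ (g * h)).trace + (c (g⁻¹ * h) * ρ (g⁻¹ * h)).trace =
      (c g * ρ g).trace * (ρ h).trace + (ρ g).trace * (c h * ρ h).trace := by
  have e1 : ρ g⁻¹ * ρ g = 1 := map_inv_mul ρ g
  rw [hc.mul_of_mem hχ hg, hc.mul_of_mem hχ (inv_mem hg), hc.inv_of_mem hχ hg, map_mul, map_mul,
    inv_inv, add_mul, add_mul, neg_mul, trace_add, trace_add, trace_neg,
    show ρ g * c h * ρ g⁻¹ * (ρ g * ρ h) = ρ g * (c h * ρ h) by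
      rw [← mul_assoc _ (ρ g), mul_assoc _ (ρ g⁻¹), e1, mul_one, mul_assoc],
    show ρ g⁻¹ * c h * ρ g * (ρ g⁻¹ * ρ h) = ρ g⁻¹ * (c h * ρ h) by
      rw [← mul_assoc _ (ρ g⁻¹), mul_assoc _ (ρ g), map_mul_inv, mul_one, mul_assoc],
    show ρ g⁻¹ * c g * ρ g * (ρ g⁻¹ * ρ h) = ρ g⁻¹ * c g * ρ h by
      rw [← mul_assoc _ (ρ g⁻¹), mul_assoc _ (ρ g), map_mul_inv, mul_one]]
  have a := adj_identity (hc.trace g) (hdet g hg) e1
  have b := inv_add_self (hdet g hg) e1
  have A : (c g * (ρ g * ρ h)).trace - (ρ g⁻¹ * c g * ρ h).trace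
      = (c g * ρ g).trace * (ρ h).trace := by
    rw [← trace_sub, ← mul_assoc, ← sub_mul, a, smul_mul_assoc, one_mul, trace_smul, smul_eq_mul]
  have B : (ρ g * (c h * ρ h)).trace + (ρ g⁻¹ * (c h * ρ h)).trace
      = (ρ g).trace * (c h * ρ h).trace := by
    rw [← trace_add, ← add_mul, b, smul_mul_assoc, one_mul, trace_smul, smul_eq_mul]
  linear_combination A + B

include hχ in
theorem trace_sq (hdet : ∀ g ∈ K, (ρ g).det = 1) {g : Γ} (hg : g ∈ K) :
    (c (g * g) * ρ (g * g)).trace = 2 * (ρ g).trace * (c g * ρ g).trace := by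
  have := hc.trace_identity hχ hdet hg hg
  rw [inv_mul_cancel, hc.map_one, zero_mul, trace_zero, add_zero] at this
  rw [this]; ring

include hχ in
theorem conj {σ g : Γ} [K.Normal] (hg : g ∈ K) :
    (c (σ * g * σ⁻¹) * ρ (σ * g * σ⁻¹)).trace = (χ σ : k) * (c g * ρ g).trace := by
  have hv : σ * g * σ⁻¹ ∈ K := Subgroup.Normal.conj_mem inferInstance g hg σ
  have e := hc.mul_of_mem hχ hv σ
  rw [inv_mul_cancel_right] at e
  have e' := hc.mul σ g
  rw [e'] at e
  set V := σ * g * σ⁻¹ with hV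
  have hcv : c V = c σ + (χ σ : k) • (ρ σ * c g * ρ σ⁻¹) - ρ V * c σ * ρ V⁻¹ :=
    eq_sub_of_add_eq e.symm
  have hVρ : ρ V = ρ σ * ρ g * ρ σ⁻¹ := by rw [hV, map_mul, map_mul]
  rw [hcv, sub_mul, add_mul, trace_sub, trace_add, smul_mul_assoc, trace_smul, smul_eq_mul]
  have A : (ρ V * c σ * ρ V⁻¹ * ρ V).trace = (c σ * ρ V).trace := by
    rw [mul_assoc _ (ρ V⁻¹), map_inv_mul, mul_one, trace_mul_comm]
  have B : (ρ σ * c g * ρ σ⁻¹ * ρ V).trace = (c g * ρ g).trace := by
    rw [hVρ, show ρ σ * c g * ρ σ⁻¹ * (ρ σ * ρ g * ρ σ⁻¹) =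
      ρ σ * (c g * (ρ σ⁻¹ * ρ σ) * ρ g) * ρ σ⁻¹ by simp only [mul_assoc], map_inv_mul, mul_one,
      trace_conj (map_inv_mul ρ σ)]
  rw [A, B]; ring

end AdCocycle

variable [Finite k] {p : ℕ} [CharP k p]

/-- the trace function of a cocycle vanishes -/
theorem AdCocycle.trace_eq_zero (hc : AdCocycle ρ χ K c) [K.Normal] (hp : p.Prime) (hp2 : p ≠ 2)
    (hχ : ∀ g ∈ K, χ g = 1) (hdet : ∀ g ∈ K, (ρ g).det = 1)
    (hsplit : ∀ g ∈ K, ∃ α β : k, α + β = (ρ g).trace ∧ α * β = (ρ g).det)
    (hspan : Submodule.span k (ρ '' (K : Set Γ)) = ⊤)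
    (htw : ∃ σ : Γ, (χ σ : k) = 2) {g : Γ} (hg : g ∈ K) : (c g * ρ g).trace = 0 := by
  have h2 : (2 : k) ≠ 0 := by
    intro h
    have : ((2 : ℕ) : k) = 0 := by exact_mod_cast h
    exact hp2 ((Nat.prime_dvd_prime_iff_eq hp Nat.prime_two).mp
      ((CharP.cast_eq_zero_iff k p 2).mp this))
  -- distinct eigenvalues
  have hreg : ∀ g ∈ K, (ρ g).trace ^ 2 ≠ 4 → (c g * ρ g).trace = 0 := by
    intro g hg ht
    haveI := Fintype.ofFinite k
    obtain ⟨α, β, hs, hpr⟩ := hsplit g hg
    rw [hdet g hg] at hpr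
    have hab : α ≠ β := by
      rintro rfl
      exact ht (by rw [← hs]; linear_combination 4 * hpr)
    have hfix : ρ g ^ Fintype.card k = ρ g := by
      have hprod : (ρ g - α • 1) * (ρ g - β • 1) = 0 := by
        have hd := hdet g hg
        rw [det_fin_two] at hd
        rw [trace_fin_two] at hs
        ext i j
        fin_cases i <;> fin_cases j <;> simp [Matrix.mul_apply, Fin.sum_univ_two] <;>
          first
            | linear_combination hpr - hd - (ρ g 0 0) * hs
            | linear_combination -(ρ g 0 1) * hs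
            | linear_combination -(ρ g 1 0) * hs
            | linear_combination hpr - hd - (ρ g 1 1) * hs
      open Polynomial in
      have hdvd : ((X : k[X]) - C α) * (X - C β) ∣ X ^ Fintype.card k - X := by
        refine IsCoprime.mul_dvd (isCoprime_X_sub_C_of_isUnit_sub (sub_ne_zero.mpr hab).isUnit)
          (dvd_iff_isRoot.mpr ?_) (dvd_iff_isRoot.mpr ?_) <;>
          simp [FiniteField.pow_card]
      obtain ⟨u, hu⟩ := hdvd
      have := congrArg (Polynomial.aeval (ρ g)) hu
      simp only [map_mul, map_sub, map_pow, Polynomial.aeval_X, Polynomial.aeval_C,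
        Algebra.algebraMap_eq_smul_one] at this
      rw [hprod, zero_mul, sub_eq_zero] at this
      exact this
    have hq : 1 ≤ Fintype.card k := Fintype.card_pos
    have hone : ρ g ^ (Fintype.card k - 1) = 1 := by
      have e : ρ g ^ (Fintype.card k - 1) * ρ g = ρ g := by
        rw [← pow_succ, Nat.sub_add_cancel hq, hfix]
      calc _ = ρ g ^ (Fintype.card k - 1) * ρ g * ρ g⁻¹ := by
            rw [mul_assoc, map_mul_inv, mul_one]
        _ = 1 := by rw [e, map_mul_inv]
    have hm : ∀ m : ℕ, (c (g ^ m) * ρ g).trace = (m : k) * (c g * ρ g).trace := by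
      intro m
      induction m with
      | zero => rw [pow_zero, hc.map_one, zero_mul, trace_zero, Nat.cast_zero, zero_mul]
      | succ m ih =>
        rw [pow_succ', hc.mul_of_mem hχ hg, add_mul, trace_add, mul_assoc _ (ρ g⁻¹),
          map_inv_mul, mul_one, trace_mul_comm (ρ g), ih]
        push_cast; ring
    have h0 := hm (Fintype.card k - 1)
    rw [hc.kill _ (pow_mem hg _) (by rw [map_pow, hone]), zero_mul, trace_zero, Nat.cast_sub hq,
      FiniteField.cast_card_eq_zero, Nat.cast_one] at h0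
    linear_combination h0
  by_cases ht : (ρ g).trace ^ 2 ≠ 4
  · exact hreg g hg ht
  push Not at ht
  -- reduce to the square
  suffices h : (c (g * g) * ρ (g * g)).trace = 0 by
    rw [hc.trace_sq hχ hdet hg] at h
    refine (mul_eq_zero.mp h).resolve_left (mul_ne_zero h2 fun h0 => ?_)
    rw [h0] at ht
    exact h2 (mul_self_eq_zero.mp (by linear_combination -ht))
  obtain ⟨e, N₀, he, hNt₀, hNd₀, hG⟩ := exists_nil_part (hdet g hg) ht h2
  obtain ⟨N, hNdef⟩ : ∃ N, N = (2 : k) • N₀ := ⟨_, rfl⟩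
  have hu : ρ (g * g) = 1 + N := by
    rw [map_mul, hG, smul_mul_smul_comm, he, one_smul, add_mul, one_mul, mul_add, mul_one,
      sq_eq_zero_of_nil hNt₀ hNd₀, add_zero, hNdef, two_smul]
    abel
  have huK : g * g ∈ K := mul_mem hg hg
  have hNt : N.trace = 0 := by rw [hNdef, trace_smul, hNt₀, smul_zero]
  have hNd : N.det = 0 := by rw [hNdef, det_smul, hNd₀, mul_zero]
  rcases eq_or_ne N 0 with hN | hN0
  · rw [hN, add_zero] at hu
    rw [hc.kill _ huK hu, zero_mul, trace_zero]
  have hNN := sq_eq_zero_of_nil hNt hNd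
  clear hG hNdef hNt₀ hNd₀ he ht hg
  generalize g * g = u at hu huK ⊢
  have hinv : ρ u⁻¹ = 1 - N := by
    calc ρ u⁻¹ = ρ u⁻¹ * ((1 + N) * (1 - N)) := by
          rw [add_mul, one_mul, mul_sub, mul_one, hNN, sub_zero, sub_add_cancel, mul_one]
      _ = 1 - N := by rw [← mul_assoc, ← hu, map_inv_mul, one_mul]
  by_cases hp3 : p = 3
  · -- `(Ad u - 1)² = 0` on the value
    subst hp3
    have h3 : (3 : k) = 0 := by exact_mod_cast CharP.cast_eq_zero k 3
    have hu3 : ρ (u * u * u) = 1 := by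
      have : ρ (u * u * u) = 1 + (3 : k) • N := by
        rw [map_mul, map_mul, hu]
        calc (1 + N) * (1 + N) * (1 + N) = 1 + (N + N + N) + (N * N + N * N + N * N + N * N * N) := by
              noncomm_ring
          _ = _ := by
            rw [hNN, zero_mul, show (3 : k) = 1 + 1 + 1 by norm_num, add_smul, add_smul, one_smul]
            abel
      rw [this, h3, zero_smul, add_zero]
    have hker := hc.kill _ (mul_mem (mul_mem huK huK) huK) hu3
    rw [mul_assoc, hc.mul_of_mem hχ huK, hc.mul_of_mem hχ huK, hu, hinv] at hker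
    have hexp : c u + (1 + N) * (c u + (1 + N) * c u * (1 - N)) * (1 - N) =
        (3 : k) • c u + (3 : k) • (N * c u - c u * N) + (-5 : k) • (N * c u * N) +
          ((N * N) * (c u - 2 • (c u * N) + c u * (N * N)) + (2 • (N * c u) + c u) * (N * N)) := by
      simp only [show (3 : k) = 1 + 1 + 1 by norm_num, show (-5 : k) = -(1 + 1 + 1 + 1 + 1) by norm_num,
        add_smul, neg_smul, one_smul]
      noncomm_ring
    rw [hexp, hNN, h3, show (-5 : k) = 1 by linear_combination (-2 : k) * h3] at hker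
    simp only [zero_smul, zero_mul, mul_zero, add_zero, zero_add, one_smul, sandwich hNt hNd] at hker
    rw [hu, mul_add, mul_one, trace_add, hc.trace u, zero_add]
    exact (smul_eq_zero.mp hker).resolve_right hN0
  -- two non commuting unipotents related by a twist
  have h3 : (3 : k) ≠ 0 := by
    intro h
    have : ((3 : ℕ) : k) = 0 := by exact_mod_cast h
    exact hp3 ((Nat.prime_dvd_prime_iff_eq hp Nat.prime_three).mp
      ((CharP.cast_eq_zero_iff k p 3).mp this))
  obtain ⟨g₁, hg₁, hmove⟩ := exists_move ρ K hspan hN0 hNN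
  obtain ⟨σ, hσ, hσm⟩ : ∃ σ : Γ, (χ σ : k) = 2 ∧ ∀ s : k, ρ σ * N * ρ σ⁻¹ ≠ s • N := by
    obtain ⟨σ₀, h0⟩ := htw
    by_cases hb : ∀ s : k, ρ σ₀ * N * ρ σ₀⁻¹ ≠ s • N
    · exact ⟨σ₀, h0, hb⟩
    push Not at hb
    obtain ⟨a, ha⟩ := hb
    refine ⟨σ₀ * g₁, by rw [map_mul, hχ g₁ hg₁, mul_one, h0], fun s hs => ?_⟩
    have hN' : N = a • (ρ σ₀⁻¹ * N * ρ σ₀) := by
      rw [← smul_mul_assoc, ← mul_smul_comm, ← ha]
      simp only [← mul_assoc, map_inv_mul, one_mul]
      rw [mul_assoc, map_inv_mul, mul_one]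
    have ha0 : a ≠ 0 := fun h => hN0 (by rw [hN', h, zero_smul])
    have h1 : ρ g₁ * N * ρ g₁⁻¹ = ρ σ₀⁻¹ * (s • N) * ρ σ₀ := by
      rw [← hs, _root_.mul_inv_rev, map_mul, map_mul]
      simp only [← mul_assoc, map_inv_mul, one_mul]
      rw [mul_assoc _ (ρ σ₀⁻¹), map_inv_mul, mul_one]
    refine hmove (s * a⁻¹) ?_
    have h4 : ρ σ₀⁻¹ * N * ρ σ₀ = a⁻¹ • N := by
      conv_rhs => rw [hN']
      rw [smul_smul, inv_mul_cancel₀ ha0, one_smul]
    rw [h1, mul_smul_comm, smul_mul_assoc, h4, smul_smul]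
  obtain ⟨M, hM⟩ : ∃ M, M = ρ σ * N * ρ σ⁻¹ := ⟨_, rfl⟩
  rw [← hM] at hσm
  have hMt : M.trace = 0 := by rw [hM, trace_conj (map_inv_mul ρ σ), hNt]
  have hMd : M.det = 0 := by rw [hM, det_conj (map_inv_mul ρ σ), hNd]
  have hMM := sq_eq_zero_of_nil hMt hMd
  have hl : (N * M).trace ≠ 0 := fun h0 => by
    obtain ⟨s, hs⟩ := nil_proportional h2 hNt hNd hMt hMd h0 hN0
    exact hσm s hs
  have hvK : σ * u * σ⁻¹ ∈ K := Subgroup.Normal.conj_mem inferInstance u huK σ
  have hv : ρ (σ * u * σ⁻¹) = 1 + M := by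
    rw [map_mul, map_mul, hu, mul_add, mul_one, add_mul, map_mul_inv, hM]
  have tv := hc.conj hχ (σ := σ) huK
  rw [hσ] at tv
  generalize σ * u * σ⁻¹ = v at hvK hv tv
  have tru : (ρ u).trace = 2 := by
    rw [hu, trace_add, trace_one, hNt, Fintype.card_fin, add_zero]; norm_num
  have trM : ∀ b : k, (1 + b • M).trace = 2 := by
    intro b
    rw [trace_add, trace_one, trace_smul, hMt, Fintype.card_fin, smul_zero, add_zero]; norm_num
  have final : ∀ (w : Γ) (b : k), w ∈ K → ρ w = 1 + b • M →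
      (c w * ρ w).trace = b * b * (2 * (c u * ρ u).trace) →
      (2 + b * (N * M).trace) ^ 2 ≠ 4 → (2 - b * (N * M).trace) ^ 2 ≠ 4 → 1 + 2 * (b * b) ≠ 0 →
      (c u * ρ u).trace = 0 := by
    intro w b hw hwρ hwt a1 a2 hb
    have t1 : (ρ (u * w)).trace = 2 + b * (N * M).trace := by
      rw [map_mul, hu, hwρ, add_mul, one_mul, trace_add, trM, mul_add, mul_one, trace_add,
        mul_smul_comm, trace_smul, hNt, smul_eq_mul, zero_add]
    have t2 : (ρ (u⁻¹ * w)).trace = 2 - b * (N * M).trace := by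
      rw [map_mul, hinv, hwρ, sub_mul, one_mul, trace_sub, trM, mul_add, mul_one, trace_add,
        mul_smul_comm, trace_smul, hNt, smul_eq_mul, zero_add]
    have := hc.trace_identity hχ hdet huK hw
    rw [hreg _ (mul_mem huK hw) (by rw [t1]; exact a1),
      hreg _ (mul_mem (inv_mem huK) hw) (by rw [t2]; exact a2), tru, hwt, hwρ, trM, add_zero] at this
    have : (c u * ρ u).trace * (2 * (1 + 2 * (b * b))) = 0 := by linear_combination -this
    exact (mul_eq_zero.mp this).resolve_right (mul_ne_zero h2 hb)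
  have e2 : ρ (v * v) = 1 + (2 : k) • M := by
    rw [map_mul, hv, add_mul, one_mul, mul_add, mul_one, hMM, add_zero, two_smul]; abel
  by_cases hA : (2 + (N * M).trace) ^ 2 ≠ 4 ∧ (2 - (N * M).trace) ^ 2 ≠ 4
  · refine final v 1 hvK (by rw [one_smul]; exact hv) (by rw [tv]; ring)
      (by rw [one_mul]; exact hA.1) (by rw [one_mul]; exact hA.2) ?_
    rwa [show (1 : k) + 2 * (1 * 1) = 3 by norm_num]
  · have hl4 : (N * M).trace = -4 ∨ (N * M).trace = 4 := by
      rw [not_and_or, not_not, not_not] at hA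
      rcases hA with h | h
      · left
        have : (N * M).trace * ((N * M).trace + 4) = 0 := by linear_combination h
        linear_combination (mul_eq_zero.mp this).resolve_left hl
      · right
        have : (N * M).trace * ((N * M).trace - 4) = 0 := by linear_combination h
        linear_combination (mul_eq_zero.mp this).resolve_left hl
    have h32 : (2 : k) * 2 * (2 * 2) * 2 ≠ 0 := by simp [h2]
    have h96 : (2 : k) * 2 * (2 * 2) * 2 * 3 ≠ 0 := mul_ne_zero h32 h3
    refine final (v * v) 2 (mul_mem hvK hvK) e2 ?_ ?_ ?_ ?_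
    · rw [hc.trace_sq hχ hdet hvK, tv, hv, ← one_smul k M, trM]
    · intro h; rcases hl4 with e | e <;> rw [e] at h
      · exact h32 (by linear_combination h)
      · exact h96 (by linear_combination h)
    · intro h; rcases hl4 with e | e <;> rw [e] at h
      · exact h96 (by linear_combination h)
      · exact h32 (by linear_combination h)
    · rw [show (1 : k) + 2 * (2 * 2) = 3 * 3 by norm_num]
      exact mul_ne_zero h3 h3

/-- a cocycle killed by the kernel is a coboundary -/
theorem AdCocycle.exists_eq (hc : AdCocycle ρ χ K c) [K.Normal] (hp : p.Prime) (hp2 : p ≠ 2)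
    (hχ : ∀ g ∈ K, χ g = 1) (hdet : ∀ g ∈ K, (ρ g).det = 1)
    (hsplit : ∀ g ∈ K, ∃ α β : k, α + β = (ρ g).trace ∧ α * β = (ρ g).det)
    (hspan : Submodule.span k (ρ '' (K : Set Γ)) = ⊤)
    (htw : ∃ σ : Γ, (χ σ : k) = 2) :
    ∃ x : Matrix (Fin 2) (Fin 2) k, x.trace = 0 ∧
      ∀ g, c g = (χ g : k) • (ρ g * x * ρ g⁻¹) - x := by
  classical
  have h2 : (2 : k) ≠ 0 := by
    intro h
    have : ((2 : ℕ) : k) = 0 := by exact_mod_cast h
    exact hp2 ((Nat.prime_dvd_prime_iff_eq hp Nat.prime_two).mp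
      ((CharP.cast_eq_zero_iff k p 2).mp this))
  have h0 : ∀ g ∈ K, (c g * ρ g).trace = 0 := fun g hg =>
    hc.trace_eq_zero hp hp2 hχ hdet hsplit hspan htw hg
  -- linearise `D g = c g * ρ g`
  let P := Finsupp.linearCombination k (fun g : K => ρ g)
  let L := Finsupp.linearCombination k (fun g : K => c g * ρ g)
  have hPs : LinearMap.range P = ⊤ := by
    rw [Finsupp.range_linearCombination, ← hspan]
    congr 1
    ext x; simp
  have hD : ∀ g h : K, c ((g * h : K) : Γ) * ρ ((g * h : K) : Γ) =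
      c g * ρ g * ρ h + ρ g * (c h * ρ h) := by
    intro g h
    rw [Subgroup.coe_mul, hc.mul_of_mem hχ g.2, map_mul, add_mul]
    congr 1
    · rw [mul_assoc]
    · rw [← mul_assoc _ (ρ (g : Γ)), mul_assoc _ (ρ (g : Γ)⁻¹), map_inv_mul, mul_one, mul_assoc]
  have hskew : ∀ a (h : K), (L a * ρ h).trace = -(P a * (c h * ρ h)).trace := by
    intro a h
    induction a using Finsupp.induction_linear with
    | zero => simp
    | add a b ha hb => simp only [map_add, add_mul, trace_add, ha, hb]; ring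
    | single g r =>
      simp only [P, L, Finsupp.linearCombination_single, smul_mul_assoc, trace_smul, smul_eq_mul]
      have := h0 _ (g * h).2
      rw [hD, trace_add] at this
      linear_combination r * this
  have hker : LinearMap.ker P ≤ LinearMap.ker L := by
    intro a ha
    rw [LinearMap.mem_ker] at ha ⊢
    have hall : ∀ X : Matrix (Fin 2) (Fin 2) k, (L a * X).trace = 0 := by
      intro X
      have hX : X ∈ Submodule.span k (ρ '' (K : Set Γ)) := hspan ▸ Submodule.mem_top
      induction hX using Submodule.span_induction with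
      | mem x hx =>
        obtain ⟨g, hg, rfl⟩ := hx
        rw [hskew a ⟨g, hg⟩, ha, zero_mul, trace_zero, neg_zero]
      | zero => simp
      | add x y _ _ hx hy => rw [mul_add, trace_add, hx, hy, add_zero]
      | smul r x _ hx => rw [mul_smul_comm, trace_smul, hx, smul_zero]
    ext i j
    have := hall (Matrix.single j i 1)
    fin_cases i <;> fin_cases j <;>
      simpa [trace_fin_two, Matrix.mul_apply, Fin.sum_univ_two, Matrix.single] using this
  choose s hs using fun X : Matrix (Fin 2) (Fin 2) k => LinearMap.range_eq_top.mp hPs X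
  have hDwd : ∀ a, L (s (P a)) = L a := fun a => sub_eq_zero.mp (by
    rw [← map_sub]
    exact hker (by rw [LinearMap.mem_ker, map_sub, hs, sub_self]))
  let D : Matrix (Fin 2) (Fin 2) k →ₗ[k] Matrix (Fin 2) (Fin 2) k :=
    { toFun := fun X => L (s X)
      map_add' := fun X Y => by rw [← map_add, ← hDwd (s X + s Y), map_add, hs, hs]
      map_smul' := fun r X => by
        rw [RingHom.id_apply, ← map_smul, ← hDwd (r • s X), map_smul, hs] }
  have hDg : ∀ g : K, D (ρ g) = c g * ρ g := by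
    intro g
    show L (s (ρ g)) = _
    rw [show ρ (g : Γ) = P (Finsupp.single g 1) by simp [P], hDwd]
    simp [L, P]
  have hder : ∀ X Y, D (X * Y) = D X * Y + X * D Y := by
    intro X Y
    have hX : X ∈ Submodule.span k (ρ '' (K : Set Γ)) := hspan ▸ Submodule.mem_top
    induction hX using Submodule.span_induction generalizing Y with
    | mem x hx =>
      obtain ⟨g, hg, rfl⟩ := hx
      have hY : Y ∈ Submodule.span k (ρ '' (K : Set Γ)) := hspan ▸ Submodule.mem_top
      induction hY using Submodule.span_induction with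
      | mem y hy =>
        obtain ⟨h, hh, rfl⟩ := hy
        rw [← map_mul]
        exact (hDg ⟨g * h, mul_mem hg hh⟩).trans
          ((hD ⟨g, hg⟩ ⟨h, hh⟩).trans (by rw [hDg ⟨g, hg⟩, hDg ⟨h, hh⟩]))
      | zero => simp
      | add x y _ _ hx hy => simp only [mul_add, map_add, hx, hy]; abel
      | smul r x _ hx => simp only [mul_smul_comm, map_smul, hx, smul_add]
    | zero => simp
    | add x y _ _ hx hy => simp only [add_mul, map_add, hx, hy]; abel
    | smul r x _ hx => simp only [smul_mul_assoc, map_smul, hx, smul_add]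
  obtain ⟨z, hz⟩ : ∃ z, z = D (Matrix.single 0 0 1) * Matrix.single 0 0 1 +
      D (Matrix.single 1 0 1) * Matrix.single 0 1 1 := ⟨_, rfl⟩
  have hzD : ∀ X, D X = z * X - X * z := by
    intro X
    have hu : (Matrix.single 0 0 1 * Matrix.single 0 0 1 + Matrix.single 1 0 1 * Matrix.single 0 1 1 :
        Matrix (Fin 2) (Fin 2) k) = 1 := by
      ext i j
      fin_cases i <;> fin_cases j <;> simp [Matrix.mul_apply, Fin.sum_univ_two, Matrix.single]
    have r0 : ∀ i : Fin 2, (Matrix.single 0 i 1 * X : Matrix (Fin 2) (Fin 2) k) =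
        X i 0 • Matrix.single 0 0 1 + X i 1 • Matrix.single 0 1 1 := by
      intro i
      ext a b
      fin_cases i <;> fin_cases a <;> fin_cases b <;>
        simp [Matrix.mul_apply, Fin.sum_univ_two, Matrix.single]
    have c0 : ∀ i : Fin 2, (X * Matrix.single i 0 1 : Matrix (Fin 2) (Fin 2) k) =
        X 0 i • Matrix.single 0 0 1 + X 1 i • Matrix.single 1 0 1 := by
      intro i
      ext a b
      fin_cases i <;> fin_cases a <;> fin_cases b <;>
        simp [Matrix.mul_apply, Fin.sum_univ_two, Matrix.single]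
    have d : ∀ i : Fin 2, D X * Matrix.single i 0 1 =
        D (X * Matrix.single i 0 1) - X * D (Matrix.single i 0 1) := fun i => by
      rw [hder]; abel
    have e : D X = D X * Matrix.single 0 0 1 * Matrix.single 0 0 1 +
        D X * Matrix.single 1 0 1 * Matrix.single 0 1 1 := by
      rw [mul_assoc, mul_assoc, ← mul_add, hu, mul_one]
    rw [e, d, d, c0, c0, map_add, map_add, map_smul, map_smul, map_smul, map_smul, hz]
    simp only [add_mul, sub_mul, mul_assoc, r0, mul_add, smul_mul_assoc, mul_smul_comm]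
    abel
  obtain ⟨x, hx⟩ : ∃ x, x = (z.trace / 2) • (1 : Matrix (Fin 2) (Fin 2) k) - z := ⟨_, rfl⟩
  have hxt : x.trace = 0 := by
    rw [hx, trace_sub, trace_smul, trace_one, Fintype.card_fin, smul_eq_mul]
    push_cast; field_simp; ring
  refine ⟨x, hxt, ?_⟩
  have hK : ∀ g ∈ K, c g = ρ g * x * ρ g⁻¹ - x := by
    intro g hg
    have e := (hDg ⟨g, hg⟩).symm.trans (hzD (ρ g))
    have e2 : c g = z - ρ g * z * ρ g⁻¹ := by
      calc c g = c g * ρ g * ρ g⁻¹ := by rw [mul_assoc, map_mul_inv, mul_one]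
        _ = _ := by rw [e, sub_mul, mul_assoc, map_mul_inv, mul_one]
    rw [e2, hx, mul_sub, sub_mul, mul_smul_comm, smul_mul_assoc, mul_one, map_mul_inv]
    abel
  intro g
  obtain ⟨d, hd⟩ : ∃ d : Γ → Matrix (Fin 2) (Fin 2) k,
      d = fun g => c g - ((χ g : k) • (ρ g * x * ρ g⁻¹) - x) := ⟨_, rfl⟩
  have dmul : ∀ g h, d (g * h) = d g + (χ g : k) • (ρ g * d h * ρ g⁻¹) := by
    intro g h
    simp only [hd, hc.mul, map_mul, _root_.mul_inv_rev, Units.val_mul, mul_sub, sub_mul, smul_sub,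
      mul_smul_comm, smul_mul_assoc, smul_smul, mul_assoc]
    abel
  have dK : ∀ g ∈ K, d g = 0 := fun g hg => by
    simp only [hd, hK g hg, hχ g hg, Units.val_one, one_smul, sub_self]
  have hcomm : ∀ h ∈ K, ρ h * d g = d g * ρ h := by
    intro h hh
    have e1 : d (h * g) = ρ h * d g * ρ h⁻¹ := by
      rw [dmul, dK h hh, hχ h hh, Units.val_one, one_smul, zero_add]
    have hh' : g⁻¹ * h * g ∈ K := by
      have := Subgroup.Normal.conj_mem (H := K) inferInstance h hh g⁻¹
      rwa [inv_inv] at this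
    have e3 : d (h * g) = d g := by
      rw [show h * g = g * (g⁻¹ * h * g) by group, dmul, dK _ hh', mul_zero, zero_mul, smul_zero,
        add_zero]
    rw [e1] at e3
    conv_rhs => rw [← e3]
    rw [mul_assoc (ρ h * d g), map_inv_mul, mul_one]
  have hall : ∀ Y, Y * d g = d g * Y := by
    intro Y
    have hY : Y ∈ Submodule.span k (ρ '' (K : Set Γ)) := hspan ▸ Submodule.mem_top
    induction hY using Submodule.span_induction with
    | mem y hy => obtain ⟨h, hh, rfl⟩ := hy; exact hcomm h hh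
    | zero => simp
    | add x y _ _ hx hy => rw [add_mul, mul_add, hx, hy]
    | smul r x _ hx => rw [smul_mul_assoc, mul_smul_comm, hx]
  have hdt : (d g).trace = 0 := by
    simp only [hd, trace_sub, trace_smul, hc.trace, trace_conj (map_inv_mul ρ g), hxt, smul_zero,
      sub_zero]
  have := eq_zero_of_central h2 hdt hall
  rw [hd] at this
  exact sub_eq_zero.mp this

end FLTAgent.PT
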