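import Mathlib

/-!
Area PT, parcel G: identities for two by two matrices used by the group lemma.
-/

set_option autoImplicit false

namespace FLTAgent.PT

open Matrix

variable {k : Type*} [Field k]

local notation "M₂" => Matrix (Fin 2) (Fin 2) k

/-- Cayley-Hamilton for traceless matrices. -/
theorem sq_of_trace_zero {X : M₂} (h : X.trace = 0) : X * X = (-X.det) • (1 : M₂) := by
  rw [trace_fin_two] at h
  ext i j
  fin_cases i <;> fin_cases j <;>
    simp [Matrix.mul_apply, Fin.sum_univ_two, det_fin_two] <;>
    first
      | linear_combination (X 0 0) * h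
      | linear_combination (X 0 1) * h
      | linear_combination (X 1 0) * h
      | linear_combination (X 1 1) * h

theorem sq_eq_zero_of_nil {N : M₂} (h : N.trace = 0) (hd : N.det = 0) : N * N = 0 := by
  rw [sq_of_trace_zero h, hd, neg_zero, zero_smul]

theorem mul_add_mul_eq {X Y : M₂} (hX : X.trace = 0) (hY : Y.trace = 0) :
    X * Y + Y * X = (X * Y).trace • (1 : M₂) := by
  rw [trace_fin_two] at hX hY
  ext i j
  fin_cases i <;> fin_cases j <;>
    simp [Matrix.mul_apply, Fin.sum_univ_two, trace_fin_two] <;>
    first
      | linear_combination (X 0 0) * hY - (Y 1 1) * hX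
      | linear_combination (X 0 1) * hY + (Y 0 1) * hX
      | linear_combination (X 1 0) * hY + (Y 1 0) * hX
      | linear_combination (Y 1 1) * hX - (X 0 0) * hY

theorem sandwich {N X : M₂} (hN : N.trace = 0) (hd : N.det = 0) :
    N * X * N = (X * N).trace • N := by
  rw [trace_fin_two] at hN
  rw [det_fin_two] at hd
  have h11 : N 1 1 = -N 0 0 := by linear_combination hN
  rw [h11] at hd
  ext i j
  fin_cases i <;> fin_cases j <;>
    simp [Matrix.mul_apply, Fin.sum_univ_two, trace_fin_two, h11] <;>
    first
      | linear_combination (X 1 1) * hd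
      | linear_combination (X 1 0) * hd
      | linear_combination (X 0 1) * hd
      | linear_combination (X 0 0) * hd
      | linear_combination -(X 1 1) * hd
      | linear_combination -(X 1 0) * hd
      | linear_combination -(X 0 1) * hd
      | linear_combination -(X 0 0) * hd

/-- two nilpotent matrices orthogonal for the trace form are proportional -/
theorem nil_proportional (h2 : (2 : k) ≠ 0) {N M : M₂} (hN : N.trace = 0) (hNd : N.det = 0)
    (hM : M.trace = 0) (hMd : M.det = 0) (h : (N * M).trace = 0) (hN0 : N ≠ 0) :
    ∃ s : k, M = s • N := by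
  rw [trace_fin_two] at hN hM
  rw [det_fin_two] at hNd hMd
  simp [Matrix.mul_apply, Fin.sum_univ_two, trace_fin_two] at h
  have h11 : N 1 1 = -N 0 0 := by linear_combination hN
  have g11 : M 1 1 = -M 0 0 := by linear_combination hM
  rw [h11] at hNd h; rw [g11] at hMd h
  set a := N 0 0; set b := N 0 1; set c := N 1 0
  set a' := M 0 0; set b' := M 0 1; set c' := M 1 0
  have e1 : a * b' - a' * b = 0 := by
    have : (a * b' - a' * b) * (a * b' - a' * b) = 0 := by
      linear_combination (-(b' ^ 2)) * hNd + (-(b ^ 2)) * hMd + (-(b * b')) * h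
    exact mul_self_eq_zero.mp this
  have e2 : a * c' - a' * c = 0 := by
    have : (a * c' - a' * c) * (a * c' - a' * c) = 0 := by
      linear_combination (-(c' ^ 2)) * hNd + (-(c ^ 2)) * hMd + (-(c * c')) * h
    exact mul_self_eq_zero.mp this
  have e3 : b * c' - b' * c = 0 := by
    have : (b * c' - b' * c) * (b * c' - b' * c) = 0 := by
      linear_combination (b * c' + b' * c - 2 * a * a') * h + (4 * b' * c') * hNd
        - (4 * a ^ 2) * hMd
    exact mul_self_eq_zero.mp this
  by_cases hb : b = 0
  · by_cases hc : c = 0
    · exfalso
      have ha : a = 0 := by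
        have : a * a = 0 := by rw [hb, hc] at hNd; linear_combination -hNd
        exact mul_self_eq_zero.mp this
      apply hN0
      ext i j
      fin_cases i <;> fin_cases j <;> simp_all [a, b, c]
    · refine ⟨c' / c, ?_⟩
      ext i j
      fin_cases i <;> fin_cases j <;> simp [h11, g11] <;> field_simp <;>
        first | linear_combination -e2 | linear_combination e2 | linear_combination -e3 |
          linear_combination e3 | rfl
  · refine ⟨b' / b, ?_⟩
    ext i j
    fin_cases i <;> fin_cases j <;> simp [h11, g11] <;> field_simp <;>
      first | linear_combination -e1 | linear_combination e1 | linear_combination -e3 |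
        linear_combination e3 | rfl

theorem det_add_scalar (X : M₂) (a : k) :
    (X + a • 1).det = X.det + a * X.trace + a * a := by
  simp [det_fin_two, trace_fin_two]; ring

/-- a special linear matrix with trace `± 2` is `± (1 + N)` -/
theorem exists_nil_part {G : M₂} (hd : G.det = 1) (ht : G.trace ^ 2 = 4) (h2 : (2 : k) ≠ 0) :
    ∃ (e : k) (N : M₂), e * e = 1 ∧ N.trace = 0 ∧ N.det = 0 ∧ G = e • (1 + N) := by
  set e := G.trace / 2 with he
  have he1 : e * e = 1 := by
    rw [he]; field_simp; linear_combination ht
  refine ⟨e, e • G - 1, he1, ?_, ?_, ?_⟩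
  · rw [trace_sub, trace_smul, trace_one, smul_eq_mul, Fintype.card_fin, he]
    field_simp; push_cast; linear_combination ht
  · rw [show e • G - 1 = e • G + (-1 : k) • 1 by rw [neg_one_smul, sub_eq_add_neg], det_add_scalar,
      det_smul, trace_smul, hd, Fintype.card_fin, smul_eq_mul, he]
    field_simp; linear_combination -ht
  · rw [add_sub_cancel, smul_smul, he1, one_smul]

theorem trace_conj {P Q X : M₂} (hQP : Q * P = 1) : (P * X * Q).trace = X.trace := by
  rw [trace_mul_comm, ← mul_assoc, hQP, one_mul]

theorem det_conj {P Q X : M₂} (hQP : Q * P = 1) : (P * X * Q).det = X.det := by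
  have : Q.det * P.det = 1 := by rw [← det_mul, hQP, det_one]
  rw [det_mul, det_mul]; linear_combination X.det * this

/-- scalar matrices are the only ones commuting with all matrices -/
theorem eq_zero_of_central (h2 : (2 : k) ≠ 0) {X : M₂} (ht : X.trace = 0)
    (h : ∀ Y : M₂, Y * X = X * Y) : X = 0 := by
  have h01 := h (Matrix.single 0 1 1)
  have a := congrFun (congrFun h01 0) 0
  have b := congrFun (congrFun h01 0) 1
  have c := congrFun (congrFun (h (Matrix.single 1 0 1)) 1) 1
  simp [Matrix.mul_apply, Fin.sum_univ_two, Matrix.single] at a b c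
  rw [trace_fin_two] at ht
  have d : X 0 0 = 0 := by
    have : 2 * X 0 0 = 0 := by linear_combination ht - b
    exact (mul_eq_zero.mp this).resolve_left h2
  ext i j
  fin_cases i <;> fin_cases j <;> simp_all

theorem adj_identity {C G G' : M₂} (hC : C.trace = 0) (hG : G.det = 1) (h : G' * G = 1) :
    C * G - G' * C = (C * G).trace • 1 := by
  have h' : G' = G.adjugate := by
    calc G' = G' * (G * G.adjugate) := by rw [mul_adjugate, hG, one_smul, mul_one]
      _ = G.adjugate := by rw [← mul_assoc, h, one_mul]
  rw [trace_fin_two] at hC
  subst h'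
  ext i j
  fin_cases i <;> fin_cases j <;>
    simp [Matrix.mul_apply, Fin.sum_univ_two, trace_fin_two, adjugate_fin_two, Matrix.vecMul, dotProduct, vecHead, vecTail] <;>
    first
      | linear_combination (-(G 0 0)) * hC
      | linear_combination (G 0 1) * hC
      | linear_combination (G 1 0) * hC
      | linear_combination (-(G 1 1)) * hC
      | linear_combination (G 0 0) * hC
      | linear_combination -(G 0 1) * hC
      | linear_combination -(G 1 0) * hC
      | linear_combination (G 1 1) * hC

theorem inv_add_self {G G' : M₂} (hG : G.det = 1) (h : G' * G = 1) :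
    G + G' = G.trace • 1 := by
  have h' : G' = G.adjugate := by
    calc G' = G' * (G * G.adjugate) := by rw [mul_adjugate, hG, one_smul, mul_one]
      _ = G.adjugate := by rw [← mul_assoc, h, one_mul]
  subst h'
  ext i j
  fin_cases i <;> fin_cases j <;>
    simp [trace_fin_two, adjugate_fin_two] <;> ring

end FLTAgent.PT
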