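import Fermat.Agent.PT.G3Matrix

/-!
Area PT, parcel G: the elements with distinct eigenvalues of an absolutely irreducible group of
matrices of determinant one span, together with `1`, all of the matrices.
-/

set_option autoImplicit false

namespace FLTAgent.PT

open Matrix

variable {k : Type*} [Field k] {Γ : Type*} [Group Γ]

variable (ρ : Γ →* (Matrix (Fin 2) (Fin 2) k)) (K : Subgroup Γ)

theorem map_mul_inv (g : Γ) : ρ g * ρ g⁻¹ = 1 := by rw [← map_mul, mul_inv_cancel, map_one]

theorem map_inv_mul (g : Γ) : ρ g⁻¹ * ρ g = 1 := by rw [← map_mul, inv_mul_cancel, map_one]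

/-- some element of a spanning subgroup moves the line of a nilpotent matrix -/
theorem exists_move (hspan : Submodule.span k (ρ '' (K : Set Γ)) = ⊤) {N : (Matrix (Fin 2) (Fin 2) k)} (hN0 : N ≠ 0)
    (hNN : N * N = 0) : ∃ g ∈ K, ∀ s : k, ρ g * N * ρ g⁻¹ ≠ s • N := by
  by_contra hc
  push Not at hc
  have key : ∀ X : (Matrix (Fin 2) (Fin 2) k), N * X * N = 0 := by
    intro X
    have hX : X ∈ Submodule.span k (ρ '' (K : Set Γ)) := hspan ▸ Submodule.mem_top
    induction hX using Submodule.span_induction with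
    | mem x hx =>
      obtain ⟨g, hg, rfl⟩ := hx
      obtain ⟨s, hs⟩ := hc g hg
      have : ρ g * N = (s • N) * ρ g := by
        rw [← hs, mul_assoc _ (ρ g⁻¹), map_inv_mul, mul_one]
      rw [mul_assoc, this, smul_mul_assoc, mul_smul_comm, ← mul_assoc, hNN, zero_mul, smul_zero]
    | zero => simp
    | add x y _ _ hx hy => rw [mul_add, add_mul, hx, hy, add_zero]
    | smul a x _ hx => rw [mul_smul_comm, smul_mul_assoc, hx, smul_zero]
  apply hN0
  ext i j
  have := congrFun (congrFun (key (Matrix.single j i 1)) i) j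
  rw [Matrix.mul_assoc] at this
  fin_cases i <;> fin_cases j <;>
    simpa [Matrix.mul_apply, Fin.sum_univ_two, Matrix.single] using this

/-- the elements of `K` with distinct eigenvalues -/
def regSet : Set (Matrix (Fin 2) (Fin 2) k) := insert 1 (ρ '' {g | g ∈ K ∧ (ρ g).trace ^ 2 ≠ 4})

variable [K.Normal]

theorem conj_mem_span {g : Γ} {X : (Matrix (Fin 2) (Fin 2) k)} (hX : X ∈ Submodule.span k (regSet ρ K)) :
    ρ g * X * ρ g⁻¹ ∈ Submodule.span k (regSet ρ K) := by
  induction hX using Submodule.span_induction with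
  | mem x hx =>
    refine Submodule.subset_span ?_
    rcases hx with rfl | ⟨h, ⟨hh, ht⟩, rfl⟩
    · left; rw [mul_one, map_mul_inv]
    · right
      refine ⟨g * h * g⁻¹, ⟨Subgroup.Normal.conj_mem inferInstance h hh g, ?_⟩,
        by rw [map_mul, map_mul]⟩
      rw [map_mul, map_mul, trace_conj (map_inv_mul ρ g)]
      exact ht
  | zero => simp
  | add x y _ _ hx hy => rw [mul_add, add_mul]; exact add_mem hx hy
  | smul a x _ hx => rw [mul_smul_comm, smul_mul_assoc]; exact Submodule.smul_mem _ a hx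

theorem span_regSet (h2 : (2 : k) ≠ 0) (hdet : ∀ g ∈ K, (ρ g).det = 1)
    (hspan : Submodule.span k (ρ '' (K : Set Γ)) = ⊤) :
    Submodule.span k (regSet ρ K) = ⊤ := by
  classical
  set W := Submodule.span k (regSet ρ K) with hW
  have hone : (1 : (Matrix (Fin 2) (Fin 2) k)) ∈ W := Submodule.subset_span (Or.inl rfl)
  refine eq_top_iff.mpr (hspan ▸ Submodule.span_le.mpr ?_)
  rintro _ ⟨g, hg, rfl⟩
  by_cases ht : (ρ g).trace ^ 2 ≠ 4
  · exact Submodule.subset_span (Or.inr ⟨g, ⟨hg, ht⟩, rfl⟩)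
  push Not at ht
  obtain ⟨e, N₀, he, hNt, hNd, hG⟩ := exists_nil_part (hdet g hg) ht h2
  rw [SetLike.mem_coe, hG, smul_add]
  refine add_mem (Submodule.smul_mem _ _ hone) (Submodule.smul_mem _ _ ?_)
  rcases eq_or_ne N₀ 0 with rfl | hN₀
  · exact zero_mem _
  -- the square of `g` is `1 + N`
  set N := (2 : k) • N₀ with hNdef
  have hN0 : N ≠ 0 := smul_ne_zero h2 hN₀
  have hNt' : N.trace = 0 := by rw [hNdef, trace_smul, hNt, smul_zero]
  have hNd' : N.det = 0 := by rw [hNdef, det_smul, hNd, mul_zero]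
  have hNN := sq_eq_zero_of_nil hNt' hNd'
  have hu : ρ (g * g) = 1 + N := by
    rw [map_mul, hG, smul_mul_smul_comm, he, one_smul, add_mul, one_mul, mul_add, mul_one,
      sq_eq_zero_of_nil hNt hNd, add_zero, hNdef, two_smul]
    abel
  have huK : g * g ∈ K := mul_mem hg hg
  clear_value N
  -- a regular element
  obtain ⟨h₁, hh₁, hmove⟩ := exists_move ρ K hspan hN0 hNN
  set M := ρ h₁ * N * ρ h₁⁻¹ with hM
  have hMt : M.trace = 0 := by rw [hM, trace_conj (map_inv_mul ρ h₁), hNt']
  have hMd : M.det = 0 := by rw [hM, det_conj (map_inv_mul ρ h₁), hNd']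
  have hl : (N * M).trace ≠ 0 := fun h0 => by
    obtain ⟨s, hs⟩ := nil_proportional h2 hNt' hNd' hMt hMd h0 hN0
    exact hmove s hs
  have hv : ρ (h₁ * (g * g) * h₁⁻¹) = 1 + M := by
    rw [map_mul, map_mul, hu, mul_add, mul_one, add_mul, map_mul_inv]
  have hvK : h₁ * (g * g) * h₁⁻¹ ∈ K := Subgroup.Normal.conj_mem inferInstance _ huK h₁
  have hMM := sq_eq_zero_of_nil hMt hMd
  have htr : ∀ a : k, ((1 + N) * (1 + a • M)).trace = 2 + a * (N * M).trace := by
    intro a
    rw [add_mul, one_mul, mul_add, mul_one, mul_smul_comm, trace_add, trace_add, trace_add,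
      trace_one, trace_smul, trace_smul, hNt', hMt, smul_eq_mul, smul_eq_mul, Fintype.card_fin]
    push_cast; ring
  obtain ⟨r, hr, hrt⟩ : ∃ r ∈ K, (ρ r).trace ^ 2 ≠ 4 := by
    set v := h₁ * (g * g) * h₁⁻¹
    by_contra hc
    push Not at hc
    have c1 := hc _ (mul_mem huK hvK)
    have c2 := hc _ (mul_mem huK (mul_mem hvK hvK))
    have e2 : ρ (v * v) = 1 + (2 : k) • M := by
      rw [map_mul, hv, add_mul, one_mul, mul_add, mul_one, hMM, add_zero, two_smul]; abel
    rw [map_mul, hu, hv, ← one_smul k M, htr] at c1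
    rw [map_mul, hu, e2, htr] at c2
    have d1 : (N * M).trace * (4 + (N * M).trace) = 0 := by linear_combination c1
    have d2 : (N * M).trace * (4 * (2 : k) + 4 * (N * M).trace) = 0 := by linear_combination c2
    have f1 := (mul_eq_zero.mp d1).resolve_left hl
    have f2 := (mul_eq_zero.mp d2).resolve_left hl
    have : (2 : k) * (2 * 2) = 0 := by linear_combination 4 * f1 - f2
    rcases mul_eq_zero.mp this with h | h
    · exact h2 h
    · exact h2 (mul_self_eq_zero.mp h)
  set X := ρ r + (-((ρ r).trace / 2)) • (1 : (Matrix (Fin 2) (Fin 2) k)) with hX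
  have hXW : X ∈ W := add_mem (Submodule.subset_span (Or.inr ⟨r, ⟨hr, hrt⟩, rfl⟩))
    (Submodule.smul_mem _ _ hone)
  have hXt : X.trace = 0 := by
    rw [hX, trace_add, trace_smul, trace_one, smul_eq_mul, Fintype.card_fin]
    push_cast; field_simp; ring
  have hXd : X.det ≠ 0 := by
    rw [hX, det_add_scalar, hdet r hr]
    intro h0
    apply hrt
    field_simp at h0
    linear_combination -h0
  -- apply `1 ± N`
  have hinv : ρ (g * g)⁻¹ = 1 - N := by
    calc ρ (g * g)⁻¹ = ρ (g * g)⁻¹ * ((1 + N) * (1 - N)) := by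
          rw [add_mul, one_mul, mul_sub, mul_one, hNN, sub_zero, sub_add_cancel, mul_one]
      _ = 1 - N := by rw [← mul_assoc, ← hu, map_inv_mul, one_mul]
  have p1 := sub_mem (conj_mem_span ρ K (g := g * g) hXW) hXW
  have p2 := sub_mem (conj_mem_span ρ K (g := (g * g)⁻¹) hXW) hXW
  rw [inv_inv, hu, hinv] at p2
  rw [hu, hinv] at p1
  have s1 : (1 + N) * X * (1 - N) - X = (N * X - X * N) - N * X * N := by noncomm_ring
  have s2 : (1 - N) * X * (1 + N) - X = -(N * X - X * N) - N * X * N := by noncomm_ring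
  rw [s1] at p1; rw [s2] at p2
  have q1 : N * X * N ∈ W := by
    have := Submodule.smul_mem W (-(1 / 2 : k)) (add_mem p1 p2)
    rwa [show (N * X - X * N - N * X * N) + (-(N * X - X * N) - N * X * N)
        = (-2 : k) • (N * X * N) by rw [neg_smul, two_smul]; abel, smul_smul,
      show (-(1 / 2) : k) * (-2) = 1 by field_simp, one_smul] at this
  have hN₀W : ∀ {c : k}, c ≠ 0 → c • N ∈ W → N₀ ∈ W := fun {c} hc h => by
    have := Submodule.smul_mem W ((c * 2)⁻¹) h
    rwa [hNdef, smul_smul, smul_smul, mul_assoc, inv_mul_cancel₀ (mul_ne_zero hc h2), one_smul]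
      at this
  rw [sandwich hNt' hNd'] at q1
  by_cases hXN : (X * N).trace = 0
  swap
  · exact hN₀W hXN q1
  have hanti : N * X + X * N = 0 := by
    rw [mul_add_mul_eq hNt' hXt, trace_mul_comm, hXN, zero_smul]
  have q2 : N * X ∈ W := by
    have := Submodule.smul_mem W (1 / 2 : k) p1
    rwa [sandwich hNt' hNd', hXN, zero_smul, sub_zero,
      show X * N = -(N * X) from eq_neg_of_add_eq_zero_right hanti, sub_neg_eq_add,
      ← two_smul k, smul_smul, show (1 / 2 : k) * 2 = 1 by field_simp, one_smul] at this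
  have hYd : (N * X).det = 0 := by rw [det_mul, hNd', zero_mul]
  have hYt : (N * X).trace = 0 := by rw [trace_mul_comm]; exact hXN
  have hYN : (N * (N * X)).trace = 0 := by rw [← mul_assoc, hNN, zero_mul, trace_zero]
  obtain ⟨s, hs⟩ := nil_proportional h2 hNt' hNd' hYt hYd hYN hN0
  refine hN₀W (c := s) (fun h0 => hN0 ?_) (hs ▸ q2)
  rw [h0, zero_smul] at hs
  calc N = N * (X * X⁻¹) := by rw [mul_nonsing_inv _ (isUnit_iff_ne_zero.mpr hXd), mul_one]
    _ = 0 := by rw [← mul_assoc, hs, zero_mul]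

end FLTAgent.PT
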