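import Fermat.Agent.PT.LocalAPI
import Fermat.Agent.PT.Global.Recip
import Fermat.Agent.PT.Global.Charpoly

/-!
Parcel D (global reciprocity): the interface, proved through the files in `PT/Global/`.
-/

set_option autoImplicit false
set_option linter.style.haveILetI false

noncomputable section

open CategoryTheory groupCohomology Polynomial

namespace FLTAgent.PT

variable {p : ℕ} [Fact p.Prime]

/-- existence of invariant maps with the fundamental exact sequence -/
theorem exists_recip (hp2 : p ≠ 2) : Nonempty (Recip p) := nonempty_recip hp2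

/-- finiteness of the classes unramified outside `T` -/
theorem finite_H1T_perm (hp2 : p ≠ 2) {H : Subgroup GQ} (hH : IsOpenSub (MonoidHom.id GQ) H)
    (hω : ∀ h ∈ H, ExtCitation.cycloChar p h = 1) (T : Finset Nat.Primes) :
    Module.Finite (ZMod p) (H1T T (ind H (mu p))) := by
  have hG : OpenMu p H := ⟨hH, hω⟩
  haveI := hH.numberField
  obtain ⟨T', hT, hg⟩ := exists_goodT hG T
  haveI : Finite (H1T T' (ind H (mu p))) := by
    rw [H1T_eq_KT hG hg]
    exact finite_KT hp2 hG _
  have hle : H1T T (ind H (mu p)) ≤ H1T T' (ind H (mu p)) :=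
    le_iInf₂ fun q hq => iInf₂_le q fun h => hq (hT h)
  haveI : Finite (H1T T (ind H (mu p))) :=
    Finite.of_injective _ (Submodule.inclusion_injective hle)
  exact Module.Finite.of_finite

/-- the locally trivial classes vanish -/
theorem sha1g_perm {H : Subgroup GQ} (hH : IsOpenSub (MonoidHom.id GQ) H)
    (hω : ∀ h ∈ H, ExtCitation.cycloChar p h = 1) :
    sha1g (ind H (mu p)) = ⊥ := by
  rw [eq_bot_iff]
  intro a ha
  simp only [sha1g, Submodule.mem_iInf, LinearMap.mem_ker] at ha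
  have hG : OpenMu p H := ⟨hH, hω⟩
  obtain ⟨F, hF, hle⟩ := hH
  obtain ⟨E, hE, hEa⟩ := base_level hG a
  haveI := hF
  haveI := hE
  rw [Submodule.mem_bot]
  refine base_injective hG ?_
  rw [map_zero]
  funext h
  obtain ⟨q, -, g, γ, hq⟩ := exists_frob_place hG (F ⊔ E)
    (fun s hs => hle (IntermediateField.fixingSubgroup_antitone le_sup_left hs)) ∅ h.2
  have h0 := hq a fun s hs => hEa s (IntermediateField.fixingSubgroup_antitone le_sup_right hs)
  rw [ha q, map_zero] at h0
  exact (mul_eq_zero.1 h0.symm).resolve_left (Units.ne_zero _)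

/-- Hasse: `Br(F)[p]` is detected locally -/
theorem sha2g_perm (hp2 : p ≠ 2) {H : Subgroup GQ} (hH : IsOpenSub (MonoidHom.id GQ) H)
    (hω : ∀ h ∈ H, ExtCitation.cycloChar p h = 1) :
    sha2g (ind H (mu p)) = ⊥ := by
  rw [eq_bot_iff]
  intro c hc
  simp only [sha2g, Submodule.mem_iInf, LinearMap.mem_ker] at hc
  exact (Submodule.mem_bot _).2 (hasse hp2 ⟨hH, hω⟩ c hc)

/-- the global classes of `Br(F)[p]` are the families with zero sum -/
theorem exists_cH2_perm (hp2 : p ≠ 2) (R : Recip p) {H : Subgroup GQ}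
    (hH : IsOpenSub (MonoidHom.id GQ) H) (hω : ∀ h ∈ H, ExtCitation.cycloChar p h = 1)
    [Finite (GQ ⧸ H)]
    (heqv : ∀ q : Nat.Primes, ∀ g a,
      (indSum H (mu p)) ((Rep.res (loc q) (ind H (mu p))).ρ g a) =
        (Rep.res (loc q) (mu p)).ρ g (indSum H (mu p) a))
    (b : ∀ q, lH2 q (ind H (mu p))) (hb : {q | b q ≠ 0}.Finite)
    (hsum : ∑ᶠ q, R.inv q (h2push (loc q) (A := Rep.res (loc q) (ind H (mu p)))
      (B := Rep.res (loc q) (mu p)) (indSum H (mu p)) (heqv q) (b q)) = 0) :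
    ∃ c : cH2 (MonoidHom.id GQ) (ind H (mu p)), ∀ q, res2 q (ind H (mu p)) c = b q :=
  exists_global_of_sum_zero hp2 ⟨hH, hω⟩ R b hb hsum

/-- the rank of the `T`-units for large `T` -/
theorem finrank_H1T_perm (hp2 : p ≠ 2) {H : Subgroup GQ} (hH : IsOpenSub (MonoidHom.id GQ) H)
    (hω : ∀ h ∈ H, ExtCitation.cycloChar p h = 1) :
    ∃ T₀ : Finset Nat.Primes, ∀ T : Finset Nat.Primes, T₀ ⊆ T →
      Module.finrank (ZMod p) (H1T T (ind H (mu p))) =
        (∑ q ∈ T, orbitCount q H) + H.index / 2 := by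
  have hG : OpenMu p H := ⟨hH, hω⟩
  haveI := hH.numberField
  obtain ⟨T₀, -, h₀⟩ := exists_goodT hG ∅
  refine ⟨T₀, fun T hT => ?_⟩
  rw [H1T_eq_KT hG (h₀.mono hT), finrank_KT hp2 hG, card_plT]

/-- the functions on the cosets fixed by `Gam q` -/
abbrev placeFns (q : Nat.Primes) (H : Subgroup GQ) : Submodule (ZMod p) (ind H (one p)) :=
  lH0 q (ind H (one p))

/-- the right translations act on classes -/
abbrev indRightH1 (H : Subgroup GQ) [H.Normal] (g : GQ) :
    cH1 (MonoidHom.id GQ) (ind H (mu p)) →ₗ[ZMod p] cH1 (MonoidHom.id GQ) (ind H (mu p)) :=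
  h1push (MonoidHom.id GQ) (indRight H (mu p) g) fun h f => indRight_eqv H (mu p) g h f

/-- the Galois structure of `O_T^*/p` for large `T`: `(O_T^*/p) + 1 = μ_p + ∑_{places of T} + ∑_∞` -/
theorem charpoly_H1T_perm (hp2 : p ≠ 2) {H : Subgroup GQ} [H.Normal]
    (hH : IsOpenSub (MonoidHom.id GQ) H) (hω : ∀ h ∈ H, ExtCitation.cycloChar p h = 1) :
    ∃ T₀ : Finset Nat.Primes, ∀ T : Finset Nat.Primes, T₀ ⊆ T → ∀ g : GQ,
      ∀ (_ : Module.Finite (ZMod p) (H1T T (ind H (mu p))))
        (h1 : ∀ x ∈ H1T T (ind H (mu p)), indRightH1 H g x ∈ H1T T (ind H (mu p)))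
        (h0 : ∀ x ∈ cH0 (ind H (mu p)), indRight H (mu p) g x ∈ cH0 (ind H (mu p)))
        (hq : ∀ q : Nat.Primes, ∀ x ∈ placeFns q H,
          indRight H (one p) g x ∈ placeFns (p := p) q H)
        (hi : ∀ x ∈ h0inf (ind H (one p)), indRight H (one p) g x ∈ h0inf (ind H (one p)))
        [Finite (GQ ⧸ H)],
        LinearMap.charpoly ((indRightH1 H g).restrict h1) * (X - 1) =
          LinearMap.charpoly ((indRight H (mu p) g).restrict h0) *
            (∏ q ∈ T, LinearMap.charpoly ((indRight H (one p) g).restrict (hq q))) *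
              LinearMap.charpoly ((indRight H (one p) g).restrict hi) := by
  have hG : OpenMu p H := ⟨hH, hω⟩
  haveI := hH.numberField
  obtain ⟨T₀, -, h₀⟩ := exists_goodT hG ∅
  refine ⟨T₀, fun T hT g _ h1 h0 hq hi _ => ?_⟩
  exact charpoly_H1T_good hp2 hG (h₀.mono hT) g h1 h0 hq hi

end FLTAgent.PT
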