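import Mathlib

/-!
The Herbrand quotient of a finitely generated abelian group with an automorphism of prime order `p`
depends only on its rank and on the rank of the fixed part.
-/

set_option autoImplicit false

noncomputable section

open Polynomial

namespace FLTAgent.PT

variable {A : Type*} [AddCommGroup A]

/-- indices of composites -/
theorem index_range_comp (f g : Module.End ℤ A) :
    (f * g).toAddMonoidHom.range.index * Nat.card f.toAddMonoidHom.ker *
        Nat.card g.toAddMonoidHom.ker =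
      f.toAddMonoidHom.range.index * g.toAddMonoidHom.range.index *
        Nat.card (f * g).toAddMonoidHom.ker ∧
      (0 < Nat.card f.toAddMonoidHom.ker → 0 < Nat.card g.toAddMonoidHom.ker →
        0 < Nat.card (f * g).toAddMonoidHom.ker) := by
  set F := f.toAddMonoidHom
  set G := g.toAddMonoidHom
  have hr : (f * g).toAddMonoidHom.range.index = (G.range ⊔ F.ker).index * F.range.index := by
    rw [← AddSubgroup.index_map]
    congr 1
    exact (AddMonoidHom.map_range F G).symm
  have hg : G.range.index = G.range.relIndex F.ker * (G.range ⊔ F.ker).index := by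
    rw [← AddSubgroup.relIndex_sup_left F.ker G.range, AddSubgroup.relIndex_mul_index le_sup_left]
  have hk : Nat.card F.ker = Nat.card ↥(G.range ⊓ F.ker : AddSubgroup A) *
      G.range.relIndex F.ker := by
    rw [AddSubgroup.relIndex, ← AddSubgroup.card_mul_index (G.range.addSubgroupOf F.ker)]
    congr 1
    exact Nat.card_congr
      { toFun := fun x => ⟨x.1.1, x.2, x.1.2⟩
        invFun := fun x => ⟨⟨x.1, x.2.2⟩, x.2.1⟩
        left_inv := fun x => rfl
        right_inv := fun x => rfl }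
  have hc : Nat.card (f * g).toAddMonoidHom.ker =
      Nat.card G.ker * Nat.card ↥(G.range ⊓ F.ker : AddSubgroup A) := by
    set h := G.comp (f * g).toAddMonoidHom.ker.subtype
    rw [← AddSubgroup.card_mul_index h.ker, AddSubgroup.index_ker]
    congr 1
    · exact Nat.card_congr
        { toFun := fun x => ⟨x.1.1, x.2⟩
          invFun := fun x => ⟨⟨x.1, by show f (g x.1) = 0; rw [show g x.1 = 0 from x.2, map_zero]⟩, x.2⟩
          left_inv := fun x => rfl
          right_inv := fun x => rfl }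
    · refine congrArg (fun S : AddSubgroup A => Nat.card S) ?_
      ext y
      constructor
      · rintro ⟨x, rfl⟩
        exact ⟨⟨x.1, rfl⟩, x.2⟩
      · rintro ⟨⟨x, rfl⟩, hy⟩
        exact ⟨⟨x, hy⟩, rfl⟩
  refine ⟨by rw [hr, hg, hk, hc]; ring, fun h1 h2 => ?_⟩
  rw [hc]
  rw [hk] at h1
  exact Nat.mul_pos h2 (Nat.pos_of_mul_pos_right h1)

variable [Module.Finite ℤ A]

/-- index and kernel of multiplication by `n` -/
theorem index_range_natCast {n : ℕ} (hn : n ≠ 0) :
    ((n : Module.End ℤ A)).toAddMonoidHom.range.index =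
        n ^ Module.finrank ℤ A * Nat.card (n : Module.End ℤ A).toAddMonoidHom.ker ∧
      0 < Nat.card (n : Module.End ℤ A).toAddMonoidHom.ker := by
  haveI : AddGroup.FG A := Module.Finite.iff_addGroup_fg.mp inferInstance
  obtain ⟨r, ι, _, q, hq, k, ⟨e⟩⟩ := AddCommGroup.equiv_free_prod_directSum_zmod A
  classical
  haveI : ∀ i, NeZero (q i ^ k i) := fun i => ⟨pow_ne_zero _ (hq i).ne_zero⟩
  haveI : Finite (DirectSum ι fun i => ZMod (q i ^ k i)) :=
    Finite.of_injective (fun x i => x i) DFunLike.coe_injective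
  set T := DirectSum ι fun i => ZMod (q i ^ k i)
  have hrank : Module.finrank ℤ A = r := by
    rw [e.toIntLinearEquiv.finrank_eq,
      ← Submodule.finrank_quotient_add_finrank (LinearMap.ker (LinearMap.fst ℤ (Fin r →₀ ℤ) T)),
      (LinearMap.quotKerEquivOfSurjective _ LinearMap.fst_surjective).finrank_eq,
      Module.finrank_finsupp_self, Fintype.card_fin]
    have : Module.finrank ℤ ↥(LinearMap.ker (LinearMap.fst ℤ (Fin r →₀ ℤ) T)) = 0 := by
      haveI : Module.Finite ℤ ↥(LinearMap.ker (LinearMap.fst ℤ (Fin r →₀ ℤ) T)) := inferInstance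
      refine (Module.finrank_eq_zero_iff (R := ℤ) (M := ↥(LinearMap.ker (LinearMap.fst ℤ (Fin r →₀ ℤ) T)))).mpr fun x => ⟨(Nat.card T : ℤ),
        by exact_mod_cast Nat.card_pos.ne', Subtype.ext (Prod.ext ?_ ?_)⟩
      · simp [show (x : (Fin r →₀ ℤ) × T).1 = 0 from x.2]
      · simp only [natCast_zsmul, SetLike.val_smul, Prod.smul_snd, ZeroMemClass.coe_zero,
          Prod.snd_zero]
        exact card_nsmul_eq_zero'
    rw [this, add_zero]
  have hT : (nsmulAddMonoidHom (α := T) n).range.index =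
      Nat.card (nsmulAddMonoidHom (α := T) n).ker := by
    have h1 := AddSubgroup.card_mul_index (nsmulAddMonoidHom (α := T) n).range
    have h2 := AddSubgroup.card_mul_index (nsmulAddMonoidHom (α := T) n).ker
    rw [AddSubgroup.index_ker] at h2
    exact Nat.eq_of_mul_eq_mul_left Nat.card_pos (h1.trans (h2.symm.trans (mul_comm _ _)))
  have hF : (nsmulAddMonoidHom (α := Fin r →₀ ℤ) n).range.index = n ^ r := by
    haveI : NeZero n := ⟨hn⟩
    let π : (Fin r →₀ ℤ) →+ (Fin r → ZMod n) :=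
      { toFun := fun x i => (x i : ZMod n)
        map_zero' := by ext; simp
        map_add' := fun x y => by ext; simp }
    have hker : π.ker = (nsmulAddMonoidHom (α := Fin r →₀ ℤ) n).range := by
      ext x
      constructor
      · intro hx
        refine ⟨Finsupp.equivFunOnFinite.symm fun i => x i / (n : ℤ), Finsupp.ext fun i => ?_⟩
        have h : ((x i : ℤ) : ZMod n) = 0 := congrFun hx i
        rw [ZMod.intCast_zmod_eq_zero_iff_dvd] at h
        simp [Int.mul_ediv_cancel' h]
      · rintro ⟨y, rfl⟩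
        ext i
        simp [π]
    have hsurj : Function.Surjective π := fun y =>
      ⟨Finsupp.equivFunOnFinite.symm fun i => ((y i).val : ℤ), funext fun i => by simp [π]⟩
    rw [← hker, AddSubgroup.index_ker, AddMonoidHom.range_eq_top.mpr hsurj,
      AddSubgroup.card_top, Nat.card_fun, Nat.card_zmod, Nat.card_eq_fintype_card, Fintype.card_fin]
  have hK : Nat.card (n : Module.End ℤ A).toAddMonoidHom.ker =
      Nat.card (nsmulAddMonoidHom (α := T) n).ker := by
    refine Nat.card_congr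
      { toFun := fun x => ⟨(e x.1).2, ?_⟩
        invFun := fun t => ⟨e.symm (0, t.1), ?_⟩
        left_inv := fun x => Subtype.ext ?_
        right_inv := fun t => Subtype.ext ?_ }
    · show n • (e x.1).2 = 0
      have h : n • (x : A) = 0 := (Module.End.natCast_apply n x.1).symm.trans x.2
      rw [← Prod.smul_snd, ← map_nsmul, h, map_zero, Prod.snd_zero]
    · show (n : Module.End ℤ A) (e.symm (0, t.1)) = 0
      rw [Module.End.natCast_apply, ← map_nsmul, Prod.smul_mk, nsmul_zero,
        show n • (t : T) = 0 from t.2]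
      exact map_zero _
    · have h : n • (x : A) = 0 := (Module.End.natCast_apply n x.1).symm.trans x.2
      refine e.injective ?_
      rw [AddEquiv.apply_symm_apply]
      refine Prod.ext (Finsupp.ext fun i => ?_) rfl
      have h' : n • (e x.1).1 i = 0 := by
        rw [← Finsupp.smul_apply, ← Prod.smul_fst, ← map_nsmul, h, map_zero]; rfl
      show 0 = (e x.1).1 i
      simp [hn] at h'
      exact h'.symm
    · simp
  haveI : Finite (nsmulAddMonoidHom (α := T) n).ker := Subtype.finite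
  refine ⟨?_, hK ▸ Nat.card_pos⟩
  have hmap : (n : Module.End ℤ A).toAddMonoidHom.range.map (e : A →+ (Fin r →₀ ℤ) × T) =
      (nsmulAddMonoidHom (α := Fin r →₀ ℤ) n).range.prod
        (nsmulAddMonoidHom (α := T) n).range := by
    ext ⟨a, t⟩
    constructor
    · rintro ⟨_, ⟨y, rfl⟩, hy⟩
      have hy' : e (n • y) = (a, t) := by simpa using hy
      rw [map_nsmul] at hy'
      exact ⟨⟨(e y).1, (Prod.ext_iff.mp hy').1⟩, ⟨(e y).2, (Prod.ext_iff.mp hy').2⟩⟩
    · rintro ⟨⟨b, hb⟩, ⟨s, hs⟩⟩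
      refine ⟨n • e.symm (b, s), ⟨e.symm (b, s), by simp⟩, ?_⟩
      show e (n • e.symm (b, s)) = (a, t)
      rw [map_nsmul, AddEquiv.apply_symm_apply, Prod.smul_mk]
      exact Prod.ext hb hs
  rw [← AddSubgroup.index_map_equiv _ e, hmap, AddSubgroup.index_prod, hF, hT, hK, hrank]

omit [Module.Finite ℤ A]

/-- the polynomial identities behind `(1 - σ) ^ (p - 1) = p · unit` -/
theorem geomSum_mul_geomSum {p i i' : ℕ} (hp : p.Prime) (h : i * i' ≡ 1 [MOD p])
    {R : Type*} [Ring R] {x : R} (hx : aeval x (cyclotomic p ℤ) = 0) :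
    (∑ j ∈ Finset.range i, x ^ j) * ∑ j ∈ Finset.range i', (x ^ i) ^ j = 1 := by
  haveI := Fact.mk hp
  set P : ℤ[X] := (∑ j ∈ Finset.range i, X ^ j) * ∑ j ∈ Finset.range i', (X ^ i) ^ j
  obtain ⟨Q, hQ⟩ : cyclotomic p ℤ ∣ P - 1 := by
    have h1 : (X - 1 : ℤ[X]) * (P - 1) = X ^ (i * i') - X := by
      rw [mul_sub, mul_one, ← mul_assoc, mul_comm (X - 1 : ℤ[X]) (∑ j ∈ Finset.range i, X ^ j),
        geom_sum_mul, mul_comm, geom_sum_mul, ← pow_mul]
      ring
    have h2 : (X ^ p - 1 : ℤ[X]) ∣ X ^ (i * i') - X := by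
      rcases Nat.eq_zero_or_pos (i * i') with h0 | h0
      · exfalso
        rw [h0] at h
        exact hp.one_lt.ne' (Nat.dvd_one.mp ((Nat.modEq_iff_dvd' zero_le_one).mp h))
      · obtain ⟨t, ht⟩ : p ∣ i * i' - 1 := (Nat.modEq_iff_dvd' h0).mp h.symm
        rw [show i * i' = p * t + 1 by omega, pow_succ, pow_mul,
          show (X ^ p) ^ t * X - X = ((X ^ p) ^ t - 1) * (X : ℤ[X]) by ring]
        exact Dvd.dvd.mul_right (sub_one_dvd_pow_sub_one _ t) _
    rw [← cyclotomic_prime_mul_X_sub_one ℤ p, ← h1, mul_comm (cyclotomic p ℤ)] at h2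
    exact (mul_dvd_mul_iff_left (by simpa using X_sub_C_ne_zero (1 : ℤ) : (X - 1 : ℤ[X]) ≠ 0)).mp h2
  have := congrArg (aeval x) hQ
  rw [map_mul, hx, zero_mul, map_sub, map_one, sub_eq_zero, map_mul, map_sum, map_sum] at this
  simpa using this

/-- `∏ (1 - X ^ i) ≡ p` modulo the cyclotomic polynomial -/
theorem prod_one_sub_pow {p : ℕ} (hp : p.Prime) :
    cyclotomic p ℤ ∣ (∏ i ∈ Finset.range (p - 1), (1 - X ^ (i + 1))) - C (p : ℤ) := by
  obtain ⟨k, rfl⟩ : ∃ k, p = k + 1 := ⟨p - 1, (Nat.sub_add_cancel hp.one_le).symm⟩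
  haveI : NeZero (k + 1) := ⟨hp.ne_zero⟩
  have hz := Complex.isPrimitiveRoot_exp (k + 1) hp.ne_zero
  rw [cyclotomic_eq_minpoly hz hp.pos]
  refine minpoly.isIntegrallyClosed_dvd (hz.isIntegral hp.pos) ?_
  simp only [map_sub, map_prod, map_one, map_pow, aeval_X, aeval_C, Nat.add_sub_cancel,
    hz.prod_one_sub_pow_eq_order]
  simp

theorem relIndex_map_restrict (g : Module.End ℤ A) (S : Submodule ℤ A) (hg : ∀ x ∈ S, g x ∈ S) :
    (S.toAddSubgroup.map g.toAddMonoidHom).relIndex S.toAddSubgroup =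
      (g.restrict hg).toAddMonoidHom.range.index := by
  show ((S.toAddSubgroup.map g.toAddMonoidHom).addSubgroupOf S.toAddSubgroup).index = _
  refine congrArg AddSubgroup.index ?_
  ext ⟨y, hy⟩
  constructor
  · rintro ⟨x, hx, rfl⟩
    exact ⟨⟨x, hx⟩, rfl⟩
  · rintro ⟨⟨x, hx⟩, he⟩
    exact ⟨x, hx, congrArg Subtype.val he⟩

variable [Module.Finite ℤ A]

/-- the Herbrand quotient in terms of ranks -/
theorem herbrand_eq {p : ℕ} (hp : p.Prime) (σ : Module.End ℤ A) (hσ : σ ^ p = 1) :
    let f := 1 - σ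
    let N := ∑ i ∈ Finset.range p, σ ^ i
    (N.toAddMonoidHom.range.relIndex f.toAddMonoidHom.ker) ^ (p - 1) * p ^ Module.finrank ℤ A =
      (f.toAddMonoidHom.range.relIndex N.toAddMonoidHom.ker) ^ (p - 1) *
          p ^ (p * Module.finrank ℤ ↥(LinearMap.ker f)) ∧
      0 < N.toAddMonoidHom.range.relIndex f.toAddMonoidHom.ker := by
  classical
  intro f N
  have hp0 := hp.ne_zero
  haveI : Fact p.Prime := ⟨hp⟩
  have hNf : N * f = 0 := by rw [geom_sum_mul_neg, hσ, sub_self]
  have hfN : f * N = 0 := by rw [mul_neg_geom_sum, hσ, sub_self]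
  set X0 := LinearMap.ker f
  set X1 := LinearMap.ker N
  have hNX0 : ∀ x ∈ X0, N x = p • x := by
    intro x hx
    have hx' : σ x = x := by
      have h : x - σ x = 0 := hx
      exact (sub_eq_zero.mp h).symm
    have hpw : ∀ i : ℕ, (σ ^ i) x = x := by
      intro i
      induction i with
      | zero => simp
      | succ i ih => rw [pow_succ', Module.End.mul_apply, ih, hx']
    simp [N, LinearMap.sum_apply, hpw]
  have hN0 : ∀ x, N x ∈ X0 := fun x => by
    show (f * N) x = 0
    rw [hfN]; rfl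
  have hf1 : ∀ x ∈ X1, f x ∈ X1 := fun x _ => by
    show (N * f) x = 0
    rw [hNf]; rfl
  have hσ1 : ∀ x ∈ X1, σ x ∈ X1 := fun x hx => by
    have h := sub_mem hx (hf1 x hx)
    rwa [show x - f x = σ x by simp [f]] at h
  set P0 : Module.End ℤ ↥X0 := (p : Module.End ℤ ↥X0)
  set σ1 : Module.End ℤ ↥X1 := σ.restrict hσ1
  set f1 : Module.End ℤ ↥X1 := 1 - σ1
  set d := Nat.card f1.toAddMonoidHom.ker
  -- the common torsion
  have hd : Nat.card P0.toAddMonoidHom.ker = d := Nat.card_congr
    { toFun := fun x => ⟨⟨x.1.1, by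
          show N x.1.1 = 0
          rw [hNX0 _ x.1.2]
          exact congrArg Subtype.val ((Module.End.natCast_apply p x.1).symm.trans x.2)⟩,
        Subtype.ext x.1.2⟩
      invFun := fun x => ⟨⟨x.1.1, congrArg Subtype.val x.2⟩, Subtype.ext (by
          have h : N x.1.1 = 0 := x.1.2
          have h0 : f x.1.1 = 0 := congrArg Subtype.val x.2
          rw [hNX0 _ h0] at h
          simpa [P0] using h)⟩
      left_inv := fun x => rfl
      right_inv := fun x => rfl }
  obtain ⟨hP0, hP0pos⟩ := index_range_natCast (A := ↥X0) hp0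
  have hdpos : 0 < d := hd ▸ hP0pos
  -- on the kernel of the norm
  have hpow : ∀ (i : ℕ) (x : ↥X1), (((σ1 ^ i) x : ↥X1) : A) = (σ ^ i) x := by
    intro i
    induction i with
    | zero => intro x; rfl
    | succ i ih =>
      intro x
      rw [pow_succ', pow_succ', Module.End.mul_apply, Module.End.mul_apply, ← ih x]
      rfl
  have hcyc : aeval σ1 (cyclotomic p ℤ) = 0 := by
    refine LinearMap.ext fun x => Subtype.ext ?_
    rw [cyclotomic_prime, map_sum, LinearMap.sum_apply, AddSubmonoidClass.coe_finsetSum]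
    simp only [map_pow, aeval_X, hpow]
    rw [← LinearMap.sum_apply]
    exact x.2
  set W : Polynomial ℤ := ∏ i ∈ Finset.range (p - 1), ∑ j ∈ Finset.range (i + 1), X ^ j
  have hunit : IsUnit (aeval σ1 W) := by
    refine Finset.prod_induction _ (fun Q => IsUnit (aeval σ1 Q))
      (fun a b ha hb => by rw [map_mul]; exact ha.mul hb) (by simp) fun i hi => ?_
    rw [Finset.mem_range] at hi
    have hne : ((i + 1 : ℕ) : ZMod p) ≠ 0 := fun h => by
      have := Nat.le_of_dvd (Nat.succ_pos i) ((ZMod.natCast_eq_zero_iff (i + 1) p).mp h)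
      omega
    have hinv : (i + 1) * (((i + 1 : ℕ) : ZMod p)⁻¹).val ≡ 1 [MOD p] := by
      rw [← ZMod.natCast_eq_natCast_iff, Nat.cast_mul, ZMod.natCast_zmod_val, mul_inv_cancel₀ hne,
        Nat.cast_one]
    have h := geomSum_mul_geomSum hp hinv hcyc
    have e1 : aeval σ1 (∑ j ∈ Finset.range (i + 1), (X : Polynomial ℤ) ^ j) =
        ∑ j ∈ Finset.range (i + 1), σ1 ^ j := by simp
    have e2 : aeval σ1 (∑ j ∈ Finset.range (((i + 1 : ℕ) : ZMod p)⁻¹).val,
        ((X : Polynomial ℤ) ^ (i + 1)) ^ j) =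
        ∑ j ∈ Finset.range (((i + 1 : ℕ) : ZMod p)⁻¹).val, (σ1 ^ (i + 1)) ^ j := by simp
    refine ⟨⟨_, aeval σ1 (∑ j ∈ Finset.range (((i + 1 : ℕ) : ZMod p)⁻¹).val,
        ((X : Polynomial ℤ) ^ (i + 1)) ^ j), ?_, ?_⟩, rfl⟩
    · rw [e1, e2]; exact h
    · rw [← map_mul, mul_comm, map_mul, e1, e2]; exact h
  have hprod : f1 ^ (p - 1) * aeval σ1 W = (p : Module.End ℤ ↥X1) := by
    have h1 : ∏ i ∈ Finset.range (p - 1), (1 - (X : Polynomial ℤ) ^ (i + 1)) =
        (1 - X) ^ (p - 1) * W := by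
      rw [← Finset.prod_congr rfl fun i _ => mul_neg_geom_sum (X : Polynomial ℤ) (i + 1),
        Finset.prod_mul_distrib, Finset.prod_const, Finset.card_range]
    obtain ⟨Q, hQ⟩ := prod_one_sub_pow hp
    have h2 := congrArg (aeval σ1) hQ
    rw [map_mul, hcyc, zero_mul, map_sub, sub_eq_zero, h1, map_mul, map_pow, map_sub, map_one,
      aeval_X, aeval_C] at h2
    simpa using h2
  have hiter : ∀ n : ℕ, (f1 ^ n).toAddMonoidHom.range.index * d ^ n =
      f1.toAddMonoidHom.range.index ^ n * Nat.card (f1 ^ n).toAddMonoidHom.ker ∧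
        0 < Nat.card (f1 ^ n).toAddMonoidHom.ker := by
    intro n
    induction n with
    | zero =>
      have h1 : (1 : Module.End ℤ ↥X1).toAddMonoidHom.range = ⊤ := AddMonoidHom.range_eq_top.mpr fun x => ⟨x, rfl⟩
      have h2 : (1 : Module.End ℤ ↥X1).toAddMonoidHom.ker = ⊥ := eq_bot_iff.mpr fun x hx => hx
      simp [h1, h2]
    | succ n ih =>
      obtain ⟨h, hpos⟩ := index_range_comp f1 (f1 ^ n)
      rw [← pow_succ'] at h hpos
      refine ⟨Nat.eq_of_mul_eq_mul_right ih.2 ?_, hpos hdpos ih.2⟩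
      calc (f1 ^ (n + 1)).toAddMonoidHom.range.index * d ^ (n + 1) *
            Nat.card (f1 ^ n).toAddMonoidHom.ker
          = (f1 ^ (n + 1)).toAddMonoidHom.range.index * d *
              Nat.card (f1 ^ n).toAddMonoidHom.ker * d ^ n := by ring
        _ = f1.toAddMonoidHom.range.index * ((f1 ^ n).toAddMonoidHom.range.index * d ^ n) *
              Nat.card (f1 ^ (n + 1)).toAddMonoidHom.ker := by rw [h]; ring
        _ = _ := by rw [ih.1]; ring
  obtain ⟨hI, hIpos⟩ := hiter (p - 1)
  have hX1 : p ^ Module.finrank ℤ ↥X1 * d ^ (p - 1) = f1.toAddMonoidHom.range.index ^ (p - 1) := by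
    obtain ⟨u, hu⟩ := hunit
    obtain ⟨h, -⟩ := index_range_comp (f1 ^ (p - 1)) (aeval σ1 W)
    have hsurj : (aeval σ1 W).toAddMonoidHom.range = ⊤ := AddMonoidHom.range_eq_top.mpr fun x =>
      ⟨(↑u⁻¹ : Module.End ℤ ↥X1) x, by
        show (aeval σ1 W * (↑u⁻¹ : Module.End ℤ ↥X1)) x = x
        rw [← hu, Units.mul_inv]; rfl⟩
    have hinj : (aeval σ1 W).toAddMonoidHom.ker = ⊥ := eq_bot_iff.mpr fun x hx => by
      have h0 := congrArg (↑u⁻¹ : Module.End ℤ ↥X1) (show aeval σ1 W x = 0 from hx)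
      rw [map_zero, ← Module.End.mul_apply, ← hu, Units.inv_mul] at h0
      exact h0
    obtain ⟨hp1, hp1pos⟩ := index_range_natCast (A := ↥X1) hp0
    rw [hprod, hsurj, hinj, AddSubgroup.index_top, AddSubgroup.card_bot, mul_one, mul_one, hp1] at h
    refine Nat.eq_of_mul_eq_mul_right (Nat.mul_pos hp1pos hIpos) ?_
    calc p ^ Module.finrank ℤ ↥X1 * d ^ (p - 1) * _
        = p ^ Module.finrank ℤ ↥X1 * Nat.card (p : Module.End ℤ ↥X1).toAddMonoidHom.ker *
            Nat.card (f1 ^ (p - 1)).toAddMonoidHom.ker * d ^ (p - 1) := by ring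
      _ = (f1 ^ (p - 1)).toAddMonoidHom.range.index * d ^ (p - 1) *
            Nat.card (p : Module.End ℤ ↥X1).toAddMonoidHom.ker := by rw [h]; ring
      _ = _ := by rw [hI]; ring
  -- the two indices
  set S := X0.toAddSubgroup ⊔ X1.toAddSubgroup
  have e0 : X0.toAddSubgroup.map N.toAddMonoidHom ≤ N.toAddMonoidHom.range := by
    rintro _ ⟨x, -, rfl⟩; exact ⟨x, rfl⟩
  have e1 : X1.toAddSubgroup.map f.toAddMonoidHom ≤ f.toAddMonoidHom.range := by
    rintro _ ⟨x, -, rfl⟩; exact ⟨x, rfl⟩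
  have hH0 : N.toAddMonoidHom.range.relIndex f.toAddMonoidHom.ker * S.index =
      p ^ Module.finrank ℤ ↥X0 * d := by
    have h := AddSubgroup.relIndex_mul_relIndex _ _ X0.toAddSubgroup e0
      (by rintro _ ⟨x, rfl⟩; exact hN0 x)
    rw [relIndex_map_restrict N X0 (fun x _ => hN0 x),
      show (N.restrict (p := X0) (q := X0) fun x _ => hN0 x) = P0 from
        LinearMap.ext fun x => Subtype.ext (by simpa [P0] using hNX0 _ x.2),
      hP0, hd, AddMonoidHom.range_eq_map, AddSubgroup.relIndex_map_map, top_sup_eq,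
      AddSubgroup.relIndex_top_right, ← AddMonoidHom.range_eq_map] at h
    rw [mul_comm]
    exact h
  have hH1 : f.toAddMonoidHom.range.relIndex N.toAddMonoidHom.ker * S.index =
      f1.toAddMonoidHom.range.index := by
    have h := AddSubgroup.relIndex_mul_relIndex _ _ X1.toAddSubgroup e1
      (by rintro _ ⟨x, rfl⟩; show (N * f) x = 0; rw [hNf]; rfl)
    rw [relIndex_map_restrict f X1 hf1,
      show f.restrict hf1 = f1 from LinearMap.ext fun x => Subtype.ext rfl,
      AddMonoidHom.range_eq_map, AddSubgroup.relIndex_map_map, top_sup_eq,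
      AddSubgroup.relIndex_top_right, ← AddMonoidHom.range_eq_map] at h
    rw [mul_comm, show S = X1.toAddSubgroup ⊔ X0.toAddSubgroup from sup_comm _ _]
    exact h
  -- the ranks
  have hrank : Module.finrank ℤ A = Module.finrank ℤ ↥X0 + Module.finrank ℤ ↥X1 := by
    rw [← Submodule.finrank_quotient_add_finrank X1, (LinearMap.quotKerEquivRange N).finrank_eq]
    congr 1
    refine le_antisymm (Submodule.finrank_mono (by rintro _ ⟨x, rfl⟩; exact hN0 x)) ?_
    let g : ↥X0 →ₗ[ℤ] ↥(LinearMap.range N) := (N.domRestrict X0).codRestrict _ fun x => ⟨_, rfl⟩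
    have hker : Module.finrank ℤ ↥(LinearMap.ker g) = 0 := by
      refine (Module.finrank_eq_zero_iff (R := ℤ) (M := ↥(LinearMap.ker g))).mpr fun x =>
        ⟨(p : ℤ), by exact_mod_cast hp0, Subtype.ext (Subtype.ext ?_)⟩
      have h : N x.1.1 = 0 := congrArg Subtype.val x.2
      rw [hNX0 _ x.1.2] at h
      simpa using h
    rw [← Submodule.finrank_quotient_add_finrank (LinearMap.ker g), hker, add_zero,
      (LinearMap.quotKerEquivRange g).finrank_eq]
    exact Submodule.finrank_le _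
  have hpos : 0 < p ^ Module.finrank ℤ ↥X0 * d := Nat.mul_pos (pow_pos hp.pos _) hdpos
  rw [← hH0] at hpos
  refine ⟨Nat.eq_of_mul_eq_mul_right (pow_pos (Nat.pos_of_mul_pos_left hpos) (p - 1)) ?_,
    Nat.pos_of_mul_pos_right hpos⟩
  have hpp : p * Module.finrank ℤ ↥X0 =
      (p - 1) * Module.finrank ℤ ↥X0 + Module.finrank ℤ ↥X0 := by
    rw [← Nat.succ_mul, Nat.succ_eq_add_one, Nat.sub_add_cancel hp.one_le]
  calc _ = (N.toAddMonoidHom.range.relIndex f.toAddMonoidHom.ker * S.index) ^ (p - 1) *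
        p ^ Module.finrank ℤ A := by rw [mul_pow]; ring
    _ = p ^ (p * Module.finrank ℤ ↥X0) * (p ^ Module.finrank ℤ ↥X1 * d ^ (p - 1)) := by
        rw [hH0, hrank, hpp, mul_pow, ← pow_mul, mul_comm (Module.finrank ℤ ↥X0), pow_add, pow_add]
        ring
    _ = _ := by rw [hX1, ← hH1, mul_pow]; ring

end FLTAgent.PT
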