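import Fermat.Agent.PT.Tool.Basic
import Fermat.Agent.PT.Tool.Shapiro
import Fermat.Agent.PT.Tool.Symbol
import Fermat.Agent.PT.Tool.Units
import Fermat.Agent.PT.Tool.Finite
import Fermat.Agent.PT.Tool.Induction
import Fermat.Agent.PT.Local.Dense

/-!
Parcel B (cochain toolkit), owner helper4: the interface. The `sorry`s are to be replaced by
proofs (helper files `PT/Tool/*.lean` may be imported here; keep names and statements stable).
-/

set_option autoImplicit false

noncomputable section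

open CategoryTheory groupCohomology

namespace FLTAgent.PT

variable {p : ℕ} [Fact p.Prime]

section General

variable {G : Type} [Group G] {r : G →* GQ}

/-- `H` is open for the topology pulled back along `r` -/
def IsOpenSub (r : G →* GQ) (H : Subgroup G) : Prop :=
  ∃ F : IntermediateField ℚ (AlgebraicClosure ℚ), FiniteDimensional ℚ F ∧
    F.fixingSubgroup.comap r ≤ H

/-- the trivial module `𝔽_p` of any group -/
abbrev triv (p : ℕ) (G : Type) [Group G] : Rep.{0} (ZMod p) G :=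
  Rep.of (Representation.trivial (ZMod p) G (ZMod p))

theorem IsOpenSub.finite_quotient {H : Subgroup G} (hH : IsOpenSub r H) : Finite (G ⧸ H) :=
  finite_quotient_of_open hH

theorem isAdm_ind {H : Subgroup G} (hH : IsOpenSub r H) {N : Rep.{0} (ZMod p) G} (hN : IsAdm r N) :
    IsAdm r (ind H N) :=
  isAdm_ind_of_open hH hN

namespace SES

variable {A B C : Rep.{0} (ZMod p) G} (E : SES r A B C)

theorem range_del0 : LinearMap.range E.del0 = LinearMap.ker (h1push r E.i E.i_eqv) := E.range_del0'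

theorem ker_del0 (x : cH0 C) : E.del0 x = 0 ↔ ∃ b ∈ cH0 B, E.pr b = x.1 := E.ker_del0' x

theorem exact_h1 :
    LinearMap.range (h1push r E.i E.i_eqv) = LinearMap.ker (h1push r E.pr E.pr_eqv) := E.exact_h1'

theorem ker_del1 : LinearMap.ker E.del1 = LinearMap.range (h1push r E.pr E.pr_eqv) := E.ker_del1'

theorem range_del1 : LinearMap.range E.del1 = LinearMap.ker (h2push r E.i E.i_eqv) := E.range_del1'

theorem exact_h2 :
    LinearMap.range (h2push r E.i E.i_eqv) = LinearMap.ker (h2push r E.pr E.pr_eqv) := E.exact_h2'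

theorem del0_natural {G' : Type} [Group G'] (r' : G' →* GQ) (f : G' →* G)
    (hf : ∀ g, r (f g) = r' g) (x : cH0 C) :
    h1map r f hf (LinearMap.id : A →ₗ[ZMod p] Rep.res f A) (fun _ _ => rfl) (E.del0 x) =
      (E.res r' f hf).del0 ⟨x.1, fun g => x.2 (f g)⟩ := E.del0_natural' r' f hf x

theorem del1_natural {G' : Type} [Group G'] (r' : G' →* GQ) (f : G' →* G)
    (hf : ∀ g, r (f g) = r' g) (x : cH1 r C) :
    continuousH2Map f hf (LinearMap.id : A →ₗ[ZMod p] Rep.res f A) (fun _ _ => rfl) (E.del1 x) =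
      (E.res r' f hf).del1
        (h1map r f hf (LinearMap.id : C →ₗ[ZMod p] Rep.res f C) (fun _ _ => rfl) x) :=
  E.del1_natural' r' f hf x

end SES

/-- naturality of the cup product -/
theorem cupH_natural {G' : Type} [Group G'] {r' : G' →* GQ} (f : G' →* G) (hf : ∀ g, r (f g) = r' g)
    {A B C : Rep.{0} (ZMod p) G} {A' B' C' : Rep.{0} (ZMod p) G'}
    (φ : A →ₗ[ZMod p] B →ₗ[ZMod p] C) (φ' : A' →ₗ[ZMod p] B' →ₗ[ZMod p] C')
    (hφ : IsEqv φ) (hφ' : IsEqv φ') (hB : IsAdm r B) (hB' : IsAdm r' B')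
    (a : A →ₗ[ZMod p] A') (ha : ∀ g x, a (A.ρ (f g) x) = A'.ρ g (a x))
    (b : B →ₗ[ZMod p] B') (hb : ∀ g x, b (B.ρ (f g) x) = B'.ρ g (b x))
    (c : C →ₗ[ZMod p] C') (hc : ∀ g x, c (C.ρ (f g) x) = C'.ρ g (c x))
    (hcomp : ∀ x y, c (φ x y) = φ' (a x) (b y)) (x : cH1 r A) (y : cH1 r B) :
    continuousH2Map f hf c hc (cupH r φ hφ hB x y) =
      cupH r' φ' hφ' hB' (h1map r f hf a ha x) (h1map r f hf b hb y) :=
  cupH_natural' f hf φ φ' hφ hφ' hB hB' a ha b hb c hc hcomp x y

section Shapiro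

variable {G' : Type} [Group G'] (f : G' →* G) (H : Subgroup G) (N : Rep.{0} (ZMod p) G)

/-- the elements of `G'` fixing a coset -/
abbrev stabAt (x : G ⧸ H) : Subgroup G' := (MulAction.stabilizer G x).comap f

/-- evaluation at a coset -/
def evAt (x : G ⧸ H) :
    Rep.res f (ind H N) →ₗ[ZMod p] Rep.res (f.comp (stabAt f H x).subtype) N :=
  LinearMap.proj x

theorem evAt_eqv (x : G ⧸ H) (g : stabAt f H x) (a : Rep.res f (ind H N)) :
    evAt f H N x ((Rep.res f (ind H N)).ρ g a) =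
      (Rep.res (f.comp (stabAt f H x).subtype) N).ρ g (evAt f H N x a) := by
  show N.ρ (f g) (a ((f g)⁻¹ • x)) = N.ρ (f g) (a x)
  rw [inv_smul_eq_iff.2 (MulAction.mem_stabilizer_iff.1 g.2).symm]

variable (r' : G' →* GQ)

/-- representatives of the orbits of `G'` on the cosets -/
def IsOrbitReps (R : Set (G ⧸ H)) : Prop :=
  ∀ x : G ⧸ H, ∃! y : R, ∃ g : G', f g • (y : G ⧸ H) = x

/-- the Shapiro map to the stabilisers in degree 1 -/
def shap1 (R : Set (G ⧸ H)) : cH1 r' (Rep.res f (ind H N)) →ₗ[ZMod p]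
    ∀ x : R, cH1 (r'.comp (stabAt f H x.1).subtype) (Rep.res (f.comp (stabAt f H x.1).subtype) N) :=
  LinearMap.pi fun x =>
    h1map r' (stabAt f H x.1).subtype (fun _ => rfl) (evAt f H N x.1) (evAt_eqv f H N x.1)

/-- the Shapiro map to the stabilisers in degree 2 -/
def shap2 (R : Set (G ⧸ H)) : cH2 r' (Rep.res f (ind H N)) →ₗ[ZMod p]
    ∀ x : R, cH2 (r'.comp (stabAt f H x.1).subtype) (Rep.res (f.comp (stabAt f H x.1).subtype) N) :=
  LinearMap.pi fun x =>
    continuousH2Map (rH := r') (stabAt f H x.1).subtype (fun _ => rfl) (evAt f H N x.1)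
      (evAt_eqv f H N x.1)

variable {f H N r'}

theorem shap0_bijective {R : Set (G ⧸ H)} (hR : IsOrbitReps f H R) :
    Function.Bijective fun (a : cH0 (Rep.res f (ind H N))) (x : R) =>
      (⟨evAt f H N x.1 a.1, fun g => by rw [← evAt_eqv, a.2 g]⟩ :
        cH0 (Rep.res (f.comp (stabAt f H x.1).subtype) N)) :=
  Shap.bijective₀ N hR _ fun _ _ => rfl

theorem shap1_bijective (hf : ∀ g, r (f g) = r' g) (hH : IsOpenSub r H) (hN : IsAdm r N)
    {R : Set (G ⧸ H)} (hR : IsOrbitReps f H R) : Function.Bijective (shap1 f H N r' R) :=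
  Shap.bijective₁ N hf hH hR (evAt_eqv f H N)

theorem shap2_bijective (hf : ∀ g, r (f g) = r' g) (hH : IsOpenSub r H) (hN : IsAdm r N)
    {R : Set (G ⧸ H)} (hR : IsOrbitReps f H R) : Function.Bijective (shap2 f H N r' R) :=
  Shap.bijective₂ N hf hH hR (evAt_eqv f H N)

end Shapiro

/-- a class killed by the kernel of a surjective character of order `p` is a symbol -/
theorem exists_symbol (K : KummerCtx p r) (χ : Z1 r (triv p G))
    (hχ : Function.Surjective χ.1) (hm : IsEqv (A := triv p G) (B := triv p G) (C := triv p G)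
      (LinearMap.mul (ZMod p) (ZMod p))) (hB : IsAdm r (triv p G))
    (N : Subgroup G) (hN : ∀ g, g ∈ N ↔ χ.1 g = 0) (c : cH2 r (triv p G))
    (hc : continuousH2Map (rH := r) (rG := r.comp N.subtype) (A := triv p G)
      (B := Rep.res N.subtype (triv p G)) N.subtype (fun _ => rfl) LinearMap.id
      (fun _ _ => rfl) c = 0) :
    ∃ y : cH1 r (triv p G),
      cupH r (A := triv p G) (B := triv p G) (C := triv p G) (LinearMap.mul (ZMod p) (ZMod p))
        hm hB (h1mk r _ χ) y = c := by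
  classical
  have hc0 : ∀ g h, χ.1 (g * h) = χ.1 g + χ.1 h := fun g h => by
    have := (mem_cocycles₁_iff χ.1).1 χ.2.1 g h
    rw [this]; exact add_comm _ _
  obtain ⟨σ, hσ⟩ := hχ 1
  obtain ⟨z, rfl⟩ := Submodule.mkQ_surjective _ c
  change continuousH2Map (rH := r) (rG := r.comp N.subtype) (A := triv p G)
    (B := Rep.res N.subtype (triv p G)) N.subtype (fun _ => rfl) LinearMap.id (fun _ _ => rfl)
    (h2mk r _ z) = 0 at hc
  rw [continuousH2Map_continuousH2π, continuousH2π_eq_zero_iff, mem_levelCoboundaries₂_iff] at hc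
  obtain ⟨u, hul, hu⟩ := hc
  -- extend the primitive by zero
  obtain ⟨F, hF, hFu⟩ := hul
  obtain ⟨F', hF', hFχ⟩ := χ.2.2
  haveI := hF; haveI := hF'
  have hχ1 : χ.1 1 = 0 := KummerCtx.hom_one hc0
  set u' : G → ZMod p := fun g => if h : g ∈ N then u ⟨g, h⟩ else 0 with hu'
  have hu'l : IsLevelConstant₁ r u' := by
    refine ⟨F ⊔ F', inferInstance, fun g s hs => ?_⟩
    have hsN : s ∈ N := (hN s).2 (by
      have := hFχ 1 s (IntermediateField.fixingSubgroup_antitone le_sup_right hs)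
      rwa [one_mul, hχ1] at this)
    simp only [hu']
    by_cases h : g ∈ N
    · rw [dif_pos h, dif_pos (mul_mem h hsN)]
      exact hFu ⟨g, h⟩ ⟨s, hsN⟩ (IntermediateField.fixingSubgroup_antitone le_sup_left hs)
    · rw [dif_neg h, dif_neg fun h' => h ((Subgroup.mul_mem_cancel_right N hsN).1 h')]
  obtain ⟨a, b, hal, hac, hbl, hb⟩ := K.exists_symbol_cochain hc0 χ.2.2 hσ (f := z.1)
    (fun g h j => (mem_cocycles₂_iff z.1).1 z.2.1 g h j) z.2.2 hu'l (fun l l' hl hl' => by
      have hl1 := (hN l).2 hl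
      have hl2 := (hN l').2 hl'
      simp only [hu']
      rw [dif_pos hl1, dif_pos hl2, dif_pos (mul_mem hl1 hl2)]
      exact (congrFun hu (⟨l, hl1⟩, ⟨l', hl2⟩)).symm)
  have haZ : a ∈ Z1 r (triv p G) := ⟨(mem_cocycles₁_iff (A := triv p G) a).2 fun g h => hac g h, hal⟩
  refine ⟨h1mk r _ ⟨a, haZ⟩, ?_⟩
  show _ = h2mk r _ z
  rw [cupH_mk, ← sub_eq_zero, ← map_sub, continuousH2π_eq_zero_iff, mem_levelCoboundaries₂_iff]
  refine ⟨fun g => -b g, hbl.comp fun t => -t, funext fun g => ?_⟩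
  obtain ⟨g, h⟩ := g
  rw [d₁₂_hom_apply]
  show -b h - -b (g * h) + -b g = χ.1 g * a h - z.1 (g, h)
  rw [hb g h]
  abel

end General

/-- almost all primes are unramified in a number field -/
theorem finite_ramified (F : IntermediateField ℚ (AlgebraicClosure ℚ)) [FiniteDimensional ℚ F] :
    {q : Nat.Primes | ∃ g ∈ inert q, loc q g ∉ F.fixingSubgroup}.Finite := finite_ramified_aux F

variable {q : Nat.Primes} {M : Rep.{0} (ZMod p) GQ}

theorem mem_unr1_iff (hM : IsUnrAt q M) (z : Z1 (loc q) (Rep.res (loc q) M)) :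
    h1mk _ _ z ∈ unr1 q M ↔ ∀ s ∈ inert q, z.1 s = 0 := mem_unr1_iff' hM z

/-- `H²` of the unramified quotient vanishes -/
theorem exists_unr_trivialisation (hM : IsAdm (MonoidHom.id GQ) M) (hu : IsUnrAt q M)
    (c : levelCocycles₂ (loc q) (Rep.res (loc q) M))
    (hc : ∀ g g' s s', s ∈ inert q → s' ∈ inert q → c.1 (g * s, g' * s') = c.1 (g, g')) :
    ∃ y : Gam q → M, IsLevelConstant₁ (loc q) y ∧ (∀ g s, s ∈ inert q → y (g * s) = y g) ∧
      (d₁₂ (Rep.res (loc q) M)).hom y = c.1 :=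
  exists_unr_trivialisation_of_range (range_loc' q).ge hM hu c hc

theorem finite_not_unr (hM : IsAdm (MonoidHom.id GQ) M) :
    {q : Nat.Primes | ¬IsUnrAt q M}.Finite := finite_not_unr' hM

theorem finite_ram1 (_hM : IsAdm (MonoidHom.id GQ) M) (x : cH1 (MonoidHom.id GQ) M) :
    {q : Nat.Primes | res1 q M x ∉ unr1 q M}.Finite := finite_ram1' x

theorem finite_res2 (hM : IsAdm (MonoidHom.id GQ) M) (c : cH2 (MonoidHom.id GQ) M) :
    {q : Nat.Primes | res2 q M c ≠ 0}.Finite :=
  finite_res2_of_range (fun q => (range_loc' q).ge) hM c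

/-- the induction principle -/
theorem adm_induction (P : Rep.{0} (ZMod p) GQ → Prop)
    (hzero : ∀ M, IsAdm (MonoidHom.id GQ) M → Subsingleton M → P M)
    (hperm : ∀ H : Subgroup GQ, IsOpenSub (MonoidHom.id GQ) H →
      (∀ h ∈ H, ExtCitation.cycloChar p h = 1) → P (ind H (one p)))
    (hext : ∀ (A B C : Rep.{0} (ZMod p) GQ) (E : SES (MonoidHom.id GQ) A B C),
      IsAdm (MonoidHom.id GQ) A → IsAdm (MonoidHom.id GQ) C → P A → P C → P B)
    (hsummand : ∀ (A B : Rep.{0} (ZMod p) GQ) (i : A →ₗ[ZMod p] B) (s : B →ₗ[ZMod p] A),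
      IsAdm (MonoidHom.id GQ) A → IsAdm (MonoidHom.id GQ) B →
      (∀ g a, i (A.ρ g a) = B.ρ g (i a)) → (∀ g b, s (B.ρ g b) = A.ρ g (s b)) →
      (∀ a, s (i a) = a) → P B → P A)
    (M : Rep.{0} (ZMod p) GQ) (hM : IsAdm (MonoidHom.id GQ) M) : P M :=
  adm_induction' P hzero hperm hext hsummand M hM

end FLTAgent.PT
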